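/-
Programme JAC (S25), work package B2, file 1 (helper37): pure commutative algebra.

A domain `R` of finite type over an algebraically closed field `k` whose module of Kähler
differentials is free of rank one (e.g. `R` standard smooth of relative dimension one over `k`)
is a Dedekind domain.
-/
import Mathlib

set_option autoImplicit false

open TensorProduct KaehlerDifferential IsLocalRing

namespace Fermat.Agent.JAC.B2.SmoothAlg37

section Cotangent

variable {k A S : Type*} [CommRing k] [CommRing A] [CommRing S]
  [Algebra k A] [Algebra A S] [Algebra k S] [IsScalarTower k A S]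

/-- If `A → S` is surjective with kernel `I` and `k → S` is bijective, then the conormal map
`I/I² → S ⊗[A] Ω[A/k]` is injective (it is even split). -/
theorem kerCotangentToTensor_injective_of_bijective
    (hAS : Function.Surjective (algebraMap A S)) (hkS : Function.Bijective (algebraMap k S)) :
    Function.Injective (kerCotangentToTensor k A S) := by
  let e : k ≃ₐ[k] S := AlgEquiv.ofBijective (Algebra.ofId k S) hkS
  let g : S →ₐ[k] (A ⧸ (RingHom.ker (algebraMap A S)) ^ 2) :=
    (Algebra.ofId k _).comp e.symm.toAlgHom
  have hg : (IsScalarTower.toAlgHom k A S).kerSquareLift.comp g = AlgHom.id k S := by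
    ext s
    obtain ⟨c, rfl⟩ := e.surjective s
    have h1 : e.symm (e c) = c := e.symm_apply_apply c
    have h2 : e c = algebraMap k S c := rfl
    change (IsScalarTower.toAlgHom k A S).kerSquareLift (Algebra.ofId k _ (e.symm (e c))) = e c
    rw [h1, h2, Algebra.ofId_apply, AlgHom.commutes]
  obtain ⟨l, hl⟩ := (retractionKerCotangentToTensorEquivSection (R := k) hAS).symm ⟨g, hg⟩
  exact Function.LeftInverse.injective (g := l) fun x => LinearMap.congr_fun hl x

end Cotangent

section Local

variable {k A : Type*} [Field k] [CommRing A] [IsLocalRing A] [Algebra k A]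

/-- A local `k`-algebra with residue field `k` and `Ω[A/k]` free of rank one has cotangent space
of dimension at most one. -/
theorem finrank_cotangentSpace_le_one
    (hres : Function.Bijective (algebraMap k (ResidueField A)))
    [Module.Free A Ω[A⁄k]] (hrank : Module.finrank A Ω[A⁄k] = 1) :
    Module.finrank (ResidueField A) (CotangentSpace A) ≤ 1 := by
  have key : ∀ (J : Ideal A) (_ : RingHom.ker (algebraMap A (ResidueField A)) = J),
      ∃ f : J.Cotangent →ₗ[A] (ResidueField A ⊗[A] Ω[A⁄k]), Function.Injective f := by
    rintro J rfl
    exact ⟨_, kerCotangentToTensor_injective_of_bijective residue_surjective hres⟩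
  obtain ⟨f, hf⟩ := key (maximalIdeal A) ker_residue
  have : Module.Finite A Ω[A⁄k] := Module.finite_of_finrank_eq_succ hrank
  let f' : CotangentSpace A →ₗ[ResidueField A] (ResidueField A ⊗[A] Ω[A⁄k]) :=
    f.extendScalarsOfSurjective residue_surjective
  have hf' : Function.Injective f' := hf
  calc Module.finrank (ResidueField A) (CotangentSpace A)
      ≤ Module.finrank (ResidueField A) (ResidueField A ⊗[A] Ω[A⁄k]) :=
        LinearMap.finrank_le_finrank_of_injective hf'
    _ = 1 := by rw [Module.finrank_baseChange, hrank]

end Local

section Global

variable {k R : Type*} [Field k] [CommRing R] [Algebra k R]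

/-- Kähler differentials of a localization at a prime are free if those of the ring are. -/
theorem free_kaehler_localization (p : Ideal R) [p.IsPrime] [Module.Free R Ω[R⁄k]] :
    Module.Free (Localization.AtPrime p) Ω[Localization.AtPrime p⁄k] := by
  have : Algebra.FormallyEtale R (Localization.AtPrime p) :=
    Algebra.FormallyEtale.of_isLocalization p.primeCompl
  exact Module.Free.of_equiv (tensorKaehlerEquivOfFormallyEtale k R (Localization.AtPrime p))

/-- Kähler differentials of a localization at a prime have the same rank. -/
theorem finrank_kaehler_localization [Nontrivial R] (p : Ideal R) [p.IsPrime]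
    [Module.Free R Ω[R⁄k]] :
    Module.finrank (Localization.AtPrime p) Ω[Localization.AtPrime p⁄k] =
      Module.finrank R Ω[R⁄k] := by
  have : Algebra.FormallyEtale R (Localization.AtPrime p) :=
    Algebra.FormallyEtale.of_isLocalization p.primeCompl
  rw [← (tensorKaehlerEquivOfFormallyEtale k R (Localization.AtPrime p)).finrank_eq,
    Module.finrank_baseChange]

/-- Nullstellensatz: residue fields at maximal ideals of a finite type algebra over an
algebraically closed field are `k`. -/
theorem bijective_algebraMap_quotient [IsAlgClosed k] [Algebra.FiniteType k R]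
    (m : Ideal R) [m.IsMaximal] : Function.Bijective (algebraMap k (R ⧸ m)) := by
  let _ : Field (R ⧸ m) := Ideal.Quotient.field m
  have : Module.Finite k (R ⧸ m) := finite_of_finite_type_of_isJacobsonRing k (R ⧸ m)
  exact IsAlgClosed.algebraMap_bijective_of_isIntegral

theorem bijective_algebraMap_residueField [IsAlgClosed k] [Algebra.FiniteType k R]
    (m : Ideal R) [m.IsMaximal] :
    Function.Bijective (algebraMap k (ResidueField (Localization.AtPrime m))) := by
  have h1 := bijective_algebraMap_quotient (k := k) m
  have h2 := Ideal.bijective_algebraMap_quotient_residueField m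
  have : algebraMap k (ResidueField (Localization.AtPrime m)) =
      (algebraMap (R ⧸ m) m.ResidueField).comp (algebraMap k (R ⧸ m)) :=
    IsScalarTower.algebraMap_eq k (R ⧸ m) m.ResidueField
  rw [this]
  exact h2.comp h1

variable [IsDomain R]

/-- The local rings at maximal ideals are Dedekind (i.e. discrete valuation rings or fields). -/
theorem isDedekindDomain_localization [IsAlgClosed k] [Algebra.FiniteType k R]
    [Module.Free R Ω[R⁄k]] (hrank : Module.finrank R Ω[R⁄k] = 1) (m : Ideal R) [m.IsMaximal] :
    IsDedekindDomain (Localization.AtPrime m) := by
  have : IsNoetherianRing R := Algebra.FiniteType.isNoetherianRing k R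
  have : IsNoetherianRing (Localization.AtPrime m) :=
    IsLocalization.isNoetherianRing m.primeCompl _ inferInstance
  have := free_kaehler_localization (k := k) m
  have h := finrank_cotangentSpace_le_one (k := k) (A := Localization.AtPrime m)
    (bijective_algebraMap_residueField m) ((finrank_kaehler_localization m).trans hrank)
  exact ((tfae_of_isNoetherianRing_of_isLocalRing_of_isDomain (Localization.AtPrime m)).out 5 2).mp h

/-- **Main theorem of this file.** A domain of finite type over an algebraically closed field
with `Ω` free of rank one is a Dedekind domain. -/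
theorem isDedekindDomain_of_finrank_kaehler_eq_one [IsAlgClosed k] [Algebra.FiniteType k R]
    [Module.Free R Ω[R⁄k]] (hrank : Module.finrank R Ω[R⁄k] = 1) : IsDedekindDomain R := by
  have hN : IsNoetherianRing R := Algebra.FiniteType.isNoetherianRing k R
  have hloc : ∀ (m : Ideal R) [m.IsMaximal], IsDedekindDomain (Localization.AtPrime m) :=
    fun m _ => isDedekindDomain_localization (k := k) hrank m
  have hIC : IsIntegrallyClosed R :=
    IsIntegrallyClosed.of_localization_maximal fun m _ _ => have := hloc m; inferInstance
  have hdim : Ring.DimensionLEOne R := by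
    refine ⟨fun {P} hP0 hP => ?_⟩
    obtain ⟨m, hm, hPm⟩ := Ideal.exists_le_maximal P hP.ne_top
    have := hloc m
    let A := Localization.AtPrime m
    have hdisj : Disjoint (m.primeCompl : Set R) (P : Set R) := by
      rw [Set.disjoint_left]
      intro x hx hxP
      exact hx (hPm hxP)
    have hPA : (Ideal.map (algebraMap R A) P).IsPrime :=
      IsLocalization.isPrime_of_isPrime_disjoint m.primeCompl A P hP hdisj
    have hPA0 : Ideal.map (algebraMap R A) P ≠ ⊥ := by
      rw [Ne, Ideal.map_eq_bot_iff_of_injective (IsLocalization.injective A m.primeCompl_le_nonZeroDivisors)]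
      exact hP0
    have hmax : (Ideal.map (algebraMap R A) P).IsMaximal :=
      Ring.DimensionLEOne.maximalOfPrime hPA0 hPA
    have h1 : Ideal.map (algebraMap R A) P = maximalIdeal A := eq_maximalIdeal hmax
    have h2 : Ideal.comap (algebraMap R A) (Ideal.map (algebraMap R A) P) = P :=
      IsLocalization.under_map_of_isPrime_disjoint m.primeCompl A hP hdisj
    have h3 : Ideal.comap (algebraMap R A) (maximalIdeal A) = m :=
      IsLocalization.AtPrime.under_maximalIdeal A m
    have : P = m := by rw [← h2, h1, h3]
    exact this ▸ hm
  exact { toIsDomain := inferInstance, toIsNoetherian := hN, toDimensionLEOne := hdim,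
          toIsIntegralClosure := hIC }

/-- Such a ring is not a field. -/
theorem not_isField_of_finrank_kaehler_eq_one [IsAlgClosed k] [Algebra.FiniteType k R]
    (hrank : Module.finrank R Ω[R⁄k] = 1) : ¬ IsField R := by
  intro hR
  let _ : Field R := hR.toField
  have : Module.Finite k R := finite_of_finite_type_of_isJacobsonRing k R
  have hbij : Function.Bijective (algebraMap k R) := IsAlgClosed.algebraMap_bijective_of_isIntegral
  have : Subsingleton Ω[R⁄k] := KaehlerDifferential.subsingleton_of_surjective k R hbij.2
  rw [Module.finrank_zero_of_subsingleton] at hrank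
  exact zero_ne_one hrank

/-- An element of a domain over an algebraically closed field which is not a constant is
transcendental. -/
theorem transcendental_of_not_mem_range [IsAlgClosed k] {t : R}
    (ht : t ∉ Set.range (algebraMap k R)) : Transcendental k t := by
  intro halg
  apply ht
  have hint : IsIntegral k t := halg.isIntegral
  let B := Algebra.adjoin k {t}
  have : Algebra.IsIntegral k B :=
    Algebra.IsIntegral.adjoin fun x hx => by rw [Set.mem_singleton_iff.mp hx]; exact hint
  have hbij : Function.Bijective (algebraMap k B) := IsAlgClosed.algebraMap_bijective_of_isIntegral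
  obtain ⟨c, hc⟩ := hbij.2 ⟨t, Algebra.subset_adjoin (Set.mem_singleton t)⟩
  exact ⟨c, by simpa using congrArg Subtype.val hc⟩

/-- There is a non-constant (hence transcendental) element. -/
theorem exists_transcendental [IsAlgClosed k] [Algebra.FiniteType k R]
    (hrank : Module.finrank R Ω[R⁄k] = 1) : ∃ t : R, Transcendental k t := by
  by_contra hcon
  push Not at hcon
  apply not_isField_of_finrank_kaehler_eq_one (k := k) hrank
  have hsurj : Function.Surjective (algebraMap k R) := by
    intro t
    by_contra ht
    exact hcon t (transcendental_of_not_mem_range ht)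
  exact (MulEquiv.isField (Field.toIsField k)
    (RingEquiv.ofBijective (algebraMap k R) ⟨(algebraMap k R).injective, hsurj⟩).symm.toMulEquiv)

end Global

section StandardSmooth

theorem finrank_kaehler_of_isStandardSmoothOfRelativeDimension_one
    (k : Type*) {R : Type*} [Field k] [CommRing R] [Nontrivial R] [Algebra k R]
    [Algebra.IsStandardSmoothOfRelativeDimension 1 k R] :
    Module.finrank R Ω[R⁄k] = 1 :=
  Module.finrank_eq_of_rank_eq
    (Algebra.IsStandardSmoothOfRelativeDimension.rank_kaehlerDifferential (R := k) (S := R) 1)

/-- A domain which is standard smooth of relative dimension one over an algebraically closed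
field is a Dedekind domain. -/
theorem isDedekindDomain_of_isStandardSmoothOfRelativeDimension_one
    (k : Type*) {R : Type*} [Field k] [IsAlgClosed k] [CommRing R] [IsDomain R] [Algebra k R]
    [Algebra.IsStandardSmoothOfRelativeDimension 1 k R] : IsDedekindDomain R := by
  have : Algebra.IsStandardSmooth k R :=
    Algebra.IsStandardSmoothOfRelativeDimension.isStandardSmooth 1
  have : Algebra.FiniteType k R := inferInstance
  exact isDedekindDomain_of_finrank_kaehler_eq_one (k := k)
    (finrank_kaehler_of_isStandardSmoothOfRelativeDimension_one k)

theorem not_isField_of_isStandardSmoothOfRelativeDimension_one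
    (k : Type*) {R : Type*} [Field k] [IsAlgClosed k] [CommRing R] [IsDomain R] [Algebra k R]
    [Algebra.IsStandardSmoothOfRelativeDimension 1 k R] : ¬ IsField R := by
  have : Algebra.IsStandardSmooth k R :=
    Algebra.IsStandardSmoothOfRelativeDimension.isStandardSmooth 1
  have : Algebra.FiniteType k R := inferInstance
  exact not_isField_of_finrank_kaehler_eq_one (k := k)
    (finrank_kaehler_of_isStandardSmoothOfRelativeDimension_one k)

theorem exists_transcendental_of_isStandardSmoothOfRelativeDimension_one
    (k : Type*) {R : Type*} [Field k] [IsAlgClosed k] [CommRing R] [IsDomain R] [Algebra k R]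
    [Algebra.IsStandardSmoothOfRelativeDimension 1 k R] :
    ∃ t : R, Transcendental k t := by
  have : Algebra.IsStandardSmooth k R :=
    Algebra.IsStandardSmoothOfRelativeDimension.isStandardSmooth 1
  have : Algebra.FiniteType k R := inferInstance
  exact exists_transcendental (k := k)
    (finrank_kaehler_of_isStandardSmoothOfRelativeDimension_one k)

end StandardSmooth

end Fermat.Agent.JAC.B2.SmoothAlg37
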