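/-
Programme JAC (S25), work package B2, file 2 (helper37): local structure of a smooth curve.

For `c : C ⟶ Spec k` smooth of relative dimension one, `C` integral, `k` algebraically closed:
* `structureHom c V : k →+* Γ(C, V)`, the `k`-algebra structure of sections;
* every point has an affine open neighbourhood whose ring of sections is standard smooth of
  relative dimension one over `k`, hence a Dedekind domain;
* every stalk is a Dedekind domain (so a discrete valuation ring or a field) and a valuation ring;
* every nonempty affine open has a Dedekind domain of sections, of finite type over `k`.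
-/
import Fermat.Agent.JAC.B2.SmoothAlg37

set_option autoImplicit false

open AlgebraicGeometry CategoryTheory TopologicalSpace IsLocalRing

namespace Fermat.Agent.JAC.B2.Charts37

universe u v

section LocalCriterion

variable {R : Type u} [CommRing R] [IsDomain R] [IsNoetherianRing R]

/-- A Noetherian domain all of whose localizations at maximal ideals are Dedekind is Dedekind. -/
theorem isDedekindDomain_of_forall_localization
    (h : ∀ (m : Ideal R) [m.IsMaximal], ∃ (A : Type v) (_ : CommRing A) (_ : Algebra R A)
      (_ : IsLocalization.AtPrime A m), IsDedekindDomain A) : IsDedekindDomain R := by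
  have hIC : IsIntegrallyClosed R := by
    refine IsIntegrallyClosed.of_localization_maximal fun m _ _ => ?_
    obtain ⟨A, _, _, _, hA⟩ := h m
    exact IsIntegrallyClosed.of_equiv
      (IsLocalization.algEquiv m.primeCompl A (Localization.AtPrime m)).toRingEquiv
  have hdim : Ring.DimensionLEOne R := by
    refine ⟨fun {P} hP0 hP => ?_⟩
    obtain ⟨m, hm, hPm⟩ := Ideal.exists_le_maximal P hP.ne_top
    obtain ⟨A, _, _, _, hA⟩ := h m
    have : IsLocalRing A := IsLocalization.AtPrime.isLocalRing A m
    have hdisj : Disjoint (m.primeCompl : Set R) (P : Set R) := by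
      rw [Set.disjoint_left]
      intro x hx hxP
      exact hx (hPm hxP)
    have hPA : (Ideal.map (algebraMap R A) P).IsPrime :=
      IsLocalization.isPrime_of_isPrime_disjoint m.primeCompl A P hP hdisj
    have hPA0 : Ideal.map (algebraMap R A) P ≠ ⊥ := by
      rw [Ne, Ideal.map_eq_bot_iff_of_injective
        (IsLocalization.injective A m.primeCompl_le_nonZeroDivisors)]
      exact hP0
    have hmax : (Ideal.map (algebraMap R A) P).IsMaximal :=
      Ring.DimensionLEOne.maximalOfPrime hPA0 hPA
    have h1 : Ideal.map (algebraMap R A) P = maximalIdeal A := eq_maximalIdeal hmax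
    have h2 : Ideal.comap (algebraMap R A) (Ideal.map (algebraMap R A) P) = P :=
      IsLocalization.under_map_of_isPrime_disjoint m.primeCompl A hP hdisj
    have h3 : Ideal.comap (algebraMap R A) (maximalIdeal A) = m :=
      IsLocalization.AtPrime.under_maximalIdeal A m
    have : P = m := by rw [← h2, h1, h3]
    exact this ▸ hm
  exact { toIsDomain := inferInstance, toIsNoetherian := inferInstance, toDimensionLEOne := hdim,
          toIsIntegralClosure := hIC }

end LocalCriterion

variable {k : Type u} [Field k] {C : Scheme.{u}} (c : C ⟶ Spec (.of k))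

lemma le_preimage_top (V : C.Opens) : V ≤ c ⁻¹ᵁ ⊤ := le_top.trans_eq c.preimage_top.symm

/-- The structure map `k → Γ(C, V)` of a `k`-scheme. -/
noncomputable def structureHom (V : C.Opens) : k →+* Γ(C, V) :=
  ((Scheme.ΓSpecIso (.of k)).inv ≫ c.appLE ⊤ V (le_preimage_top c V)).hom

lemma structureHom_def (V : C.Opens) :
    structureHom c V =
      (c.appLE ⊤ V (le_preimage_top c V)).hom.comp (Scheme.ΓSpecIso (.of k)).inv.hom := rfl

/-- Restriction is a `k`-algebra map. -/
lemma map_comp_structureHom {V V' : C.Opens} (i : V' ≤ V) :
    (C.presheaf.map (homOfLE i).op).hom.comp (structureHom c V) = structureHom c V' := by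
  rw [structureHom_def, structureHom_def, ← RingHom.comp_assoc, ← CommRingCat.hom_comp,
    Scheme.Hom.appLE_map]

lemma map_structureHom_apply {V V' : C.Opens} (i : V' ≤ V) (a : k) :
    C.presheaf.map (homOfLE i).op (structureHom c V a) = structureHom c V' a :=
  RingHom.congr_fun (map_comp_structureHom c i) a

/-- An open subset of the spectrum of a field containing a point is everything. -/
lemma opens_spec_field_eq_top (U : (Spec (.of k)).Opens) (x : Spec (.of k)) (hx : x ∈ U) :
    U = ⊤ := by
  ext y
  simp only [Opens.coe_top, Set.mem_univ, iff_true]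
  have : y = x := Subsingleton.elim _ _
  rw [this]; exact hx

/-- Around every point of a smooth curve there is a standard smooth affine chart. -/
theorem exists_chart [SmoothOfRelativeDimension 1 c] (x : C) :
    ∃ V : C.Opens, IsAffineOpen V ∧ x ∈ V ∧
      (structureHom c V).IsStandardSmoothOfRelativeDimension 1 := by
  obtain ⟨U, hU, V, hV, hx, e, h⟩ :=
    SmoothOfRelativeDimension.exists_isStandardSmoothOfRelativeDimension (n := 1) (f := c) x
  have hUtop : U = ⊤ := opens_spec_field_eq_top U (c x) (e hx)
  subst hUtop
  refine ⟨V, hV, hx, ?_⟩
  rw [structureHom_def]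
  exact (RingHom.isStandardSmoothOfRelativeDimension_respectsIso (n := 1)).2 _
    (Scheme.ΓSpecIso (.of k)).symm.commRingCatIsoToRingEquiv h

/-- Sections over affine opens are of finite type over `k`. -/
theorem finiteType_structureHom [LocallyOfFiniteType c] {V : C.Opens} (hV : IsAffineOpen V) :
    (structureHom c V).FiniteType := by
  rw [structureHom_def]
  exact (c.finiteType_appLE (isAffineOpen_top (Spec (.of k))) hV (le_preimage_top c V)).comp
    (RingHom.FiniteType.of_surjective _
      (Scheme.ΓSpecIso (.of k)).symm.commRingCatIsoToRingEquiv.surjective)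

section Integral

variable [IsAlgClosed k] [IsIntegral C]

/-- A standard smooth chart of relative dimension one has a Dedekind ring of sections. -/
theorem isDedekindDomain_of_chart {V : C.Opens} [Nonempty V]
    (hV : (structureHom c V).IsStandardSmoothOfRelativeDimension 1) :
    IsDedekindDomain Γ(C, V) := by
  algebraize [structureHom c V]
  exact SmoothAlg37.isDedekindDomain_of_isStandardSmoothOfRelativeDimension_one k

variable [SmoothOfRelativeDimension 1 c]

include c

/-- Every stalk of a smooth integral curve over an algebraically closed field is a Dedekind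
domain. -/
theorem isDedekindDomain_stalk (x : C) : IsDedekindDomain (C.presheaf.stalk x) := by
  obtain ⟨V, hV, hx, hsm⟩ := exists_chart c x
  have : Nonempty V := ⟨⟨x, hx⟩⟩
  have := isDedekindDomain_of_chart c hsm
  let _ : Algebra Γ(C, V) (C.presheaf.stalk x) :=
    TopCat.Presheaf.algebra_section_stalk C.presheaf ⟨x, hx⟩
  have hloc := hV.isLocalization_stalk ⟨x, hx⟩
  exact IsLocalization.AtPrime.isDedekindDomain Γ(C, V) (hV.primeIdealOf ⟨x, hx⟩).asIdeal
    (C.presheaf.stalk x)

/-- Every stalk is a principal ideal ring. -/
theorem isPrincipalIdealRing_stalk (x : C) : IsPrincipalIdealRing (C.presheaf.stalk x) := by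
  have := isDedekindDomain_stalk c x
  exact ((tfae_of_isNoetherianRing_of_isLocalRing_of_isDomain (C.presheaf.stalk x)).out 2 0).mp
    this

/-- Every stalk is a valuation ring. -/
theorem valuationRing_stalk (x : C) : ValuationRing (C.presheaf.stalk x) := by
  have := isDedekindDomain_stalk c x
  exact ((tfae_of_isNoetherianRing_of_isLocalRing_of_isDomain (C.presheaf.stalk x)).out 2 1).mp
    this

/-- Every nonempty affine open of a smooth integral curve over an algebraically closed field has
a Dedekind ring of sections. -/
theorem isDedekindDomain_of_isAffineOpen {V : C.Opens} (hV : IsAffineOpen V) [Nonempty V] :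
    IsDedekindDomain Γ(C, V) := by
  have : LocallyOfFiniteType c := by
    have := SmoothOfRelativeDimension.smooth 1 c
    infer_instance
  have hft := finiteType_structureHom c hV
  have : IsNoetherianRing Γ(C, V) := by
    algebraize [structureHom c V]
    exact Algebra.FiniteType.isNoetherianRing k Γ(C, V)
  refine isDedekindDomain_of_forall_localization fun m hm => ?_
  let y : PrimeSpectrum Γ(C, V) := ⟨m, hm.isPrime⟩
  have hy : hV.fromSpec y ∈ V := by
    rw [← SetLike.mem_coe, ← hV.range_fromSpec]
    exact Set.mem_range_self y
  exact ⟨C.presheaf.stalk (hV.fromSpec y), inferInstance,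
    TopCat.Presheaf.algebra_section_stalk C.presheaf ⟨hV.fromSpec y, hy⟩,
    hV.isLocalization_stalk' y hy, isDedekindDomain_stalk c _⟩

end Integral

end Fermat.Agent.JAC.B2.Charts37
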