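/-
Programme JAC (S25), work package B2, file 5 (helper37): a nonconstant function on an affine
Dedekind curve over an algebraically closed field is quasi-finite.
-/
import Fermat.Agent.JAC.B2.SmoothAlg37

set_option autoImplicit false

open Polynomial

namespace Fermat.Agent.JAC.B2.CurveAlg37

variable {k S : Type*} [Field k] [IsAlgClosed k] [CommRing S] [IsDedekindDomain S]
  [Algebra k S] [Algebra.FiniteType k S] [Algebra k[X] S] [IsScalarTower k k[X] S]

/-- In a Dedekind domain, only finitely many primes contain a given nonzero ideal. -/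
theorem finite_primes_ge {S : Type*} [CommRing S] [IsDedekindDomain S]
    {I : Ideal S} (hI : I ≠ ⊥) : {P : Ideal S | P.IsPrime ∧ I ≤ P}.Finite := by
  refine (Ideal.finite_minimalPrimes_of_isNoetherianRing S I).subset ?_
  rintro P ⟨hP, hIP⟩
  refine ⟨⟨hP, hIP⟩, ?_⟩
  rintro Q ⟨hQ, hIQ⟩ hQP
  have hQ0 : Q ≠ ⊥ := fun h => hI (le_bot_iff.mp (h ▸ hIQ))
  have hQmax : Q.IsMaximal := hQ.isMaximal hQ0
  exact (hQmax.eq_of_le hP.ne_top hQP).ge

include k in
/-- A prime of `S` lying over the zero ideal of `k[X]` is zero. -/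
theorem eq_bot_of_under_eq_bot (P : Ideal S) [hP : P.IsPrime]
    (h : P.under k[X] = ⊥) : P = ⊥ := by
  by_contra hP0
  have hmax : P.IsMaximal := hP.isMaximal hP0
  obtain ⟨c, hc⟩ := (SmoothAlg37.bijective_algebraMap_quotient (k := k) P).2
    (Ideal.Quotient.mk P (algebraMap k[X] S X))
  have hmem : (X - C c : k[X]) ∈ P.under k[X] := by
    rw [Ideal.under_def, Ideal.mem_comap, ← Ideal.Quotient.eq_zero_iff_mem, map_sub, map_sub,
      ← hc, sub_eq_zero]
    rw [← Ideal.Quotient.algebraMap_eq, ← IsScalarTower.algebraMap_apply,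
      ← Polynomial.algebraMap_eq (R := k), ← IsScalarTower.algebraMap_apply]
  rw [h, Ideal.mem_bot] at hmem
  exact Polynomial.X_sub_C_ne_zero c hmem

/-- **Quasi-finiteness.** If `k[X] → S` is injective, with `S` a Dedekind domain of finite type
over the algebraically closed field `k`, then `S` is quasi-finite over `k[X]`. -/
theorem quasiFinite_of_injective (hinj : Function.Injective (algebraMap k[X] S)) :
    Algebra.QuasiFinite k[X] S := by
  have : Algebra.FiniteType k[X] S := Algebra.FiniteType.of_restrictScalars_finiteType k k[X] S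
  rw [Algebra.QuasiFinite.iff_finite_primesOver]
  intro q hq
  by_cases hq0 : q = ⊥
  · subst hq0
    refine (Set.finite_singleton (⊥ : Ideal S)).subset ?_
    rintro P ⟨hP, hPq⟩
    have : P.under k[X] = ⊥ := hPq.over.symm
    exact eq_bot_of_under_eq_bot (k := k) P this
  · have hI : q.map (algebraMap k[X] S) ≠ ⊥ := by
      rwa [Ne, Ideal.map_eq_bot_iff_of_injective hinj]
    refine (finite_primes_ge hI).subset ?_
    rintro P ⟨hP, hPq⟩
    refine ⟨hP, ?_⟩
    rw [Ideal.map_le_iff_le_comap, hPq.over]

end Fermat.Agent.JAC.B2.CurveAlg37
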