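/-
Programme JAC (S25), work package B2, file 3 (helper37): the domain of definition of a rational
function on an integral scheme, and the regular function it defines there.
-/
import Mathlib

set_option autoImplicit false

open AlgebraicGeometry CategoryTheory TopologicalSpace Opposite

namespace Fermat.Agent.JAC.B2.Domain37

universe u

variable {X : Scheme.{u}} [IsIntegral X]

/-- The generic point lies in every nonempty open. -/
lemma genericPoint_mem_of_nonempty (U : X.Opens) (h : Nonempty U) : genericPoint X ∈ U :=
  ((genericPoint_spec X).mem_open_set_iff U.isOpen).mpr (by simpa using h)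

/-- A rational function is regular at `x` if it lies in the local ring at `x`. -/
def IsRegularAt (t : X.functionField) (x : X) : Prop :=
  t ∈ Set.range (algebraMap (X.presheaf.stalk x) X.functionField)

/-- If `t` is the germ of a section over `V`, it is regular at all points of `V`. -/
lemma isRegularAt_of_germ {t : X.functionField} {V : X.Opens} [Nonempty V] (a : Γ(X, V))
    (ha : X.germToFunctionField V a = t) {y : X} (hy : y ∈ V) : IsRegularAt t y :=
  ⟨X.presheaf.germ V y hy a, by rw [Scheme.algebraMap_germ_eq_germToFunctionField, ha]⟩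

/-- Regularity at `x` is witnessed by a section over a neighbourhood. -/
lemma IsRegularAt.exists_section {t : X.functionField} {x : X} (h : IsRegularAt t x) :
    ∃ (V : X.Opens) (_ : x ∈ V) (_ : Nonempty V) (a : Γ(X, V)),
      X.germToFunctionField V a = t := by
  obtain ⟨g, hg⟩ := h
  obtain ⟨V, hxV, a, ha⟩ := X.presheaf.exists_germ_eq g
  have : Nonempty V := ⟨⟨x, hxV⟩⟩
  refine ⟨V, hxV, this, a, ?_⟩
  rw [← hg, ← ha, Scheme.algebraMap_germ_eq_germToFunctionField]

lemma isOpen_setOf_isRegularAt (t : X.functionField) : IsOpen {x : X | IsRegularAt t x} := by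
  rw [isOpen_iff_forall_mem_open]
  intro x hx
  obtain ⟨V, hxV, _, a, ha⟩ := hx.exists_section
  exact ⟨V, fun y hy => isRegularAt_of_germ a ha hy, V.isOpen, hxV⟩

/-- The domain of definition of a rational function. -/
def domain (t : X.functionField) : X.Opens := ⟨{x | IsRegularAt t x}, isOpen_setOf_isRegularAt t⟩

lemma mem_domain {t : X.functionField} {x : X} : x ∈ domain t ↔ IsRegularAt t x := Iff.rfl

lemma genericPoint_mem_domain (t : X.functionField) : genericPoint X ∈ domain t := by
  obtain ⟨V, hV, a, ha⟩ := X.presheaf.exists_germ_eq t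
  have : Nonempty V := ⟨⟨_, hV⟩⟩
  exact isRegularAt_of_germ a ha hV

instance nonempty_domain (t : X.functionField) : Nonempty (domain t) :=
  ⟨⟨_, genericPoint_mem_domain t⟩⟩

/-- Sections over nonempty opens are determined by their image in the function field. -/
lemma eq_of_germToFunctionField_eq {V : X.Opens} [Nonempty V] {a b : Γ(X, V)}
    (h : X.germToFunctionField V a = X.germToFunctionField V b) : a = b :=
  X.germToFunctionField_injective V h

lemma germToFunctionField_map {V W : X.Opens} [Nonempty V] [Nonempty W] (i : W ≤ V)
    (a : Γ(X, V)) :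
    X.germToFunctionField W (X.presheaf.map (homOfLE i).op a) = X.germToFunctionField V a :=
  X.presheaf.germ_res_apply (homOfLE i) (genericPoint X) _ a

/-- **The regular function defined by a rational function on its domain of definition.** -/
theorem exists_section_domain (t : X.functionField) :
    ∃ a : Γ(X, domain t), X.germToFunctionField (domain t) a = t := by
  classical
  -- local data
  have hloc : ∀ x : domain t, ∃ (V : X.Opens) (_ : x.1 ∈ V) (_ : Nonempty V) (_ : V ≤ domain t)
      (a : Γ(X, V)), X.germToFunctionField V a = t := by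
    rintro ⟨x, hx⟩
    obtain ⟨V, hxV, hne, a, ha⟩ := (mem_domain.mp hx).exists_section
    exact ⟨V, hxV, hne, fun y hy => mem_domain.mpr (isRegularAt_of_germ a ha hy), a, ha⟩
  choose V hxV hne hVle a ha using hloc
  have hcompat : TopCat.Presheaf.IsCompatible X.sheaf.1 V a := by
    intro i j
    have hne' : Nonempty (V i ⊓ V j : X.Opens) :=
      ⟨⟨genericPoint X, genericPoint_mem_of_nonempty _ (hne i), genericPoint_mem_of_nonempty _ (hne j)⟩⟩
    have := hne i
    have := hne j
    apply X.germToFunctionField_injective (V i ⊓ V j)
    exact (germToFunctionField_map (inf_le_left) (a i)).trans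
      ((ha i).trans ((ha j).symm.trans (germToFunctionField_map (inf_le_right) (a j)).symm))
  have hcover : domain t ≤ iSup V := by
    intro x hx
    rw [Opens.mem_iSup]
    exact ⟨⟨x, hx⟩, hxV ⟨x, hx⟩⟩
  obtain ⟨s, hs, -⟩ := X.sheaf.existsUnique_gluing' V (domain t) (fun i => homOfLE (hVle i))
    hcover a hcompat
  refine ⟨s, ?_⟩
  have i0 : domain t := ⟨_, genericPoint_mem_domain t⟩
  have := hne i0
  rw [← germToFunctionField_map (hVle i0) s]
  exact (congrArg _ (hs i0)).trans (ha i0)

/-- The regular function on `domain t` defined by the rational function `t`. -/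
noncomputable def sec (t : X.functionField) : Γ(X, domain t) :=
  Classical.choose (exists_section_domain t)

@[simp]
lemma germToFunctionField_sec (t : X.functionField) :
    X.germToFunctionField (domain t) (sec t) = t :=
  Classical.choose_spec (exists_section_domain t)

lemma algebraMap_germ_sec (t : X.functionField) {x : X} (hx : x ∈ domain t) :
    algebraMap (X.presheaf.stalk x) X.functionField (X.presheaf.germ (domain t) x hx (sec t)) =
      t := by
  rw [Scheme.algebraMap_germ_eq_germToFunctionField, germToFunctionField_sec]

/-- Any section whose germ is `t` is a restriction of `sec t`. -/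
lemma le_domain_of_germ {t : X.functionField} {V : X.Opens} [Nonempty V] (a : Γ(X, V))
    (ha : X.germToFunctionField V a = t) : V ≤ domain t :=
  fun _ hy => mem_domain.mpr (isRegularAt_of_germ a ha hy)

lemma map_sec_eq {t : X.functionField} {V : X.Opens} [Nonempty V] (a : Γ(X, V))
    (ha : X.germToFunctionField V a = t) :
    X.presheaf.map (homOfLE (le_domain_of_germ a ha)).op (sec t) = a := by
  apply X.germToFunctionField_injective V
  rw [germToFunctionField_map, germToFunctionField_sec, ha]

/-- At a point of `domain t`, the germ of `sec t` is a unit iff `t⁻¹` is regular there. -/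
lemma isUnit_germ_sec_iff {t : X.functionField} (ht : t ≠ 0) {x : X} (hx : x ∈ domain t) :
    IsUnit (X.presheaf.germ (domain t) x hx (sec t)) ↔ IsRegularAt t⁻¹ x := by
  have hinj : Function.Injective (algebraMap (X.presheaf.stalk x) X.functionField) :=
    IsFractionRing.injective _ _
  constructor
  · intro hu
    obtain ⟨u, hu⟩ := hu
    refine ⟨((u⁻¹ : (X.presheaf.stalk x)ˣ) : X.presheaf.stalk x), ?_⟩
    have h1 : algebraMap (X.presheaf.stalk x) X.functionField (u : X.presheaf.stalk x) = t := by
      rw [hu, algebraMap_germ_sec]
    have h2 : algebraMap (X.presheaf.stalk x) X.functionField (u : X.presheaf.stalk x) *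
        algebraMap (X.presheaf.stalk x) X.functionField
          ((u⁻¹ : (X.presheaf.stalk x)ˣ) : X.presheaf.stalk x) = 1 := by
      rw [← map_mul, Units.mul_inv, map_one]
    rw [h1] at h2
    exact (eq_inv_of_mul_eq_one_right h2)
  · rintro ⟨g', hg'⟩
    have h2 : X.presheaf.germ (domain t) x hx (sec t) * g' = 1 := by
      apply hinj
      rw [map_mul, algebraMap_germ_sec, hg', map_one, mul_inv_cancel₀ ht]
    exact IsUnit.of_mul_eq_one _ h2

/-- The overlap of the domains of `t` and `t⁻¹` is the nonvanishing locus of `sec t`. -/
theorem domain_inf_domain_inv {t : X.functionField} (ht : t ≠ 0) :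
    domain t ⊓ domain t⁻¹ = X.basicOpen (sec t) := by
  ext x
  constructor
  · rintro ⟨h1, h2⟩
    exact (X.mem_basicOpen (sec t) x h1).mpr ((isUnit_germ_sec_iff ht h1).mpr (mem_domain.mp h2))
  · intro hx
    have h1 : x ∈ domain t := X.basicOpen_le _ hx
    exact ⟨h1, mem_domain.mpr ((isUnit_germ_sec_iff ht h1).mp
      ((X.mem_basicOpen (sec t) x h1).mp hx))⟩

/-- On the overlap, `sec t * sec t⁻¹ = 1`. -/
theorem map_sec_mul_map_sec_inv {t : X.functionField} (ht : t ≠ 0) {W : X.Opens} [Nonempty W]
    (h1 : W ≤ domain t) (h2 : W ≤ domain t⁻¹) :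
    X.presheaf.map (homOfLE h1).op (sec t) * X.presheaf.map (homOfLE h2).op (sec t⁻¹) = 1 := by
  apply X.germToFunctionField_injective W
  rw [map_mul, germToFunctionField_map, germToFunctionField_map, germToFunctionField_sec,
    germToFunctionField_sec, map_one, mul_inv_cancel₀ ht]

section ValuationRing

variable (hval : ∀ x : X, ValuationRing (X.presheaf.stalk x))

include hval

/-- If all stalks are valuation rings, then `t` or `t⁻¹` is regular at each point. -/
theorem isRegularAt_or_isRegularAt_inv (t : X.functionField) (x : X) :
    IsRegularAt t x ∨ IsRegularAt t⁻¹ x := by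
  have := hval x
  exact ValuationRing.isInteger_or_isInteger (X.presheaf.stalk x) t

theorem domain_sup_domain_inv (t : X.functionField) : domain t ⊔ domain t⁻¹ = ⊤ := by
  rw [eq_top_iff]
  intro x _
  rcases isRegularAt_or_isRegularAt_inv hval t x with h | h
  · exact Or.inl (mem_domain.mpr h)
  · exact Or.inr (mem_domain.mpr h)

/-- **Pole lemma.** At a point where `t` is not regular, `t⁻¹` is regular and vanishes. -/
theorem pole {t : X.functionField} {x : X} (hx : x ∉ domain t) :
    x ∈ domain t⁻¹ ∧ x ∉ X.basicOpen (sec t⁻¹) := by
  have ht : t ≠ 0 := by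
    rintro rfl
    exact hx (mem_domain.mpr ⟨0, map_zero _⟩)
  have h1 : x ∈ domain t⁻¹ :=
    mem_domain.mpr ((isRegularAt_or_isRegularAt_inv hval t x).resolve_left hx)
  refine ⟨h1, fun h2 => hx ?_⟩
  have := domain_inf_domain_inv (inv_ne_zero ht)
  rw [inv_inv] at this
  have h3 : x ∈ domain t⁻¹ ⊓ domain t := this ▸ h2
  exact h3.2

end ValuationRing

end Fermat.Agent.JAC.B2.Domain37
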