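/-
Programme JAC (S25), work package B2, file 6 (helper37): the two-chart presentation of a smooth
proper integral curve over an algebraically closed field.

For a nonconstant rational function `t` on `C`, the domain of definition `U₀` of `t` and the
domain of definition `U₁` of `t⁻¹` are affine opens covering `C`, `Γ(C, U₀)` is finite over
`k[t]`, `Γ(C, U₁)` is finite over `k[t⁻¹]`, and `U₀ ⊓ U₁` is the nonvanishing locus of `t` in
`U₀` and of `t⁻¹` in `U₁`.
-/
import Fermat.Agent.JAC.B2.Charts37
import Fermat.Agent.JAC.B2.Domain37
import Fermat.Agent.JAC.B2.Valuative37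
import Fermat.Agent.JAC.B2.CurveAlg37

set_option autoImplicit false

open AlgebraicGeometry CategoryTheory TopologicalSpace Opposite Polynomial

namespace Fermat.Agent.JAC.B2.TwoChart37

open Charts37 Domain37 Valuative37

universe u

variable {k : Type u} [Field k] {C : Scheme.{u}} (c : C ⟶ Spec (.of k))

/-- Evaluation of polynomials at a section. -/
noncomputable def evHom {V : C.Opens} (a : Γ(C, V)) : k[X] →+* Γ(C, V) :=
  Polynomial.eval₂RingHom (structureHom c V) a

@[simp] lemma evHom_X {V : C.Opens} (a : Γ(C, V)) : evHom c a X = a := by simp [evHom]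

@[simp] lemma evHom_C {V : C.Opens} (a : Γ(C, V)) (b : k) :
    evHom c a (Polynomial.C b) = structureHom c V b := by simp [evHom]

lemma map_comp_evHom {V W : C.Opens} (i : W ≤ V) (a : Γ(C, V)) :
    (C.presheaf.map (homOfLE i).op).hom.comp (evHom c a) =
      evHom c (C.presheaf.map (homOfLE i).op a) := by
  apply Polynomial.ringHom_ext
  · intro b
    simp [evHom, map_structureHom_apply]
  · simp [evHom]

section FunctionFieldAlgebra

variable [IsIntegral C]

instance nonempty_top : Nonempty (⊤ : C.Opens) := ⟨⟨genericPoint C, trivial⟩⟩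

/-- The structure map `k → K(C)`. -/
noncomputable def structureHomF : k →+* C.functionField :=
  (C.germToFunctionField ⊤).hom.comp (structureHom c ⊤)

lemma germToFunctionField_comp_structureHom (V : C.Opens) [Nonempty V] :
    (C.germToFunctionField V).hom.comp (structureHom c V) = structureHomF c := by
  ext a
  have h1 := map_structureHom_apply c (le_top : V ≤ ⊤) a
  change C.germToFunctionField V (structureHom c V a) =
    C.germToFunctionField ⊤ (structureHom c ⊤ a)
  rw [← h1, germToFunctionField_map]

lemma germToFunctionField_structureHom (V : C.Opens) [Nonempty V] (a : k) :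
    C.germToFunctionField V (structureHom c V a) = structureHomF c a :=
  RingHom.congr_fun (germToFunctionField_comp_structureHom c V) a

/-- Evaluation of polynomials at a rational function. -/
noncomputable def evHomF (t : C.functionField) : k[X] →+* C.functionField :=
  Polynomial.eval₂RingHom (structureHomF c) t

lemma germToFunctionField_comp_evHom {V : C.Opens} [Nonempty V] (a : Γ(C, V)) :
    (C.germToFunctionField V).hom.comp (evHom c a) = evHomF c (C.germToFunctionField V a) := by
  apply Polynomial.ringHom_ext
  · intro b
    simp [evHom, evHomF, germToFunctionField_structureHom]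
  · simp [evHom, evHomF]

/-- A rational function is nonconstant if it is transcendental over `k`. -/
def IsNonconstant (t : C.functionField) : Prop := Function.Injective (evHomF c t)

lemma evHom_injective {t : C.functionField} (ht : IsNonconstant c t) {V : C.Opens} [Nonempty V]
    (a : Γ(C, V)) (ha : C.germToFunctionField V a = t) : Function.Injective (evHom c a) := by
  have h := germToFunctionField_comp_evHom c a
  rw [ha] at h
  have : Function.Injective ((C.germToFunctionField V).hom.comp (evHom c a)) := h ▸ ht
  exact Function.Injective.of_comp this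

lemma IsNonconstant.inv {t : C.functionField} (ht : IsNonconstant c t) :
    IsNonconstant c t⁻¹ := by
  let _ : Algebra k C.functionField := (structureHomF c).toAlgebra
  have h1 : ∀ s : C.functionField, evHomF c s = (Polynomial.aeval s : k[X] →ₐ[k] _).toRingHom := by
    intro s
    apply Polynomial.ringHom_ext
    · intro b; simp [evHomF, RingHom.algebraMap_toAlgebra]
    · simp [evHomF]
  have h2 : ∀ s : C.functionField, IsNonconstant c s ↔ Transcendental k s := by
    intro s
    rw [transcendental_iff_injective, IsNonconstant, h1]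
    rfl
  rw [h2] at ht ⊢
  intro halg
  apply ht
  simpa using halg.inv

lemma IsNonconstant.ne_zero {t : C.functionField} (ht : IsNonconstant c t) : t ≠ 0 := by
  rintro rfl
  have : evHomF c 0 X = evHomF c 0 0 := by simp [evHomF]
  exact X_ne_zero (ht this)

end FunctionFieldAlgebra

section ToLine

/-- The morphism `U ⟶ 𝔸¹` defined by a section. -/
noncomputable def toLine {U : C.Opens} (a : Γ(C, U)) : U.toScheme ⟶ Spec (.of k[X]) :=
  U.toSpecΓ ≫ Spec.map (CommRingCat.ofHom (evHom c a))

/-- The structure morphism of the affine line. -/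
noncomputable def lineStr (k : Type u) [Field k] : Spec (.of k[X]) ⟶ Spec (.of k) :=
  Spec.map (CommRingCat.ofHom (Polynomial.C : k →+* k[X]))

lemma toSpecΓ_structureHom (U : C.Opens) :
    U.toSpecΓ ≫ Spec.map (CommRingCat.ofHom (structureHom c U)) = U.ι ≫ c := by
  have h1 : CommRingCat.ofHom (structureHom c U) =
      (Scheme.ΓSpecIso (.of k)).inv ≫ c.appLE ⊤ U (le_preimage_top c U) := rfl
  rw [h1, Spec.map_comp, ← Category.assoc, Scheme.Opens.toSpecΓ_SpecMap_appLE,
    Scheme.Opens.toSpecΓ_top, Category.assoc, Category.assoc, toSpecΓ_SpecMap_ΓSpecIso_inv,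
    Category.comp_id, Scheme.Hom.resLE_comp_ι]

lemma toLine_comp_lineStr {U : C.Opens} (a : Γ(C, U)) : toLine c a ≫ lineStr k = U.ι ≫ c := by
  have h1 : CommRingCat.ofHom (Polynomial.C : k →+* k[X]) ≫ CommRingCat.ofHom (evHom c a) =
      CommRingCat.ofHom (structureHom c U) := by
    ext b
    simp
  rw [toLine, lineStr, Category.assoc, ← Spec.map_comp, h1, toSpecΓ_structureHom]

lemma ΓSpecIso_inv_comp_toLine_appTop {U : C.Opens} (a : Γ(C, U)) :
    (Scheme.ΓSpecIso (.of k[X])).inv ≫ (toLine c a).appTop =
      CommRingCat.ofHom (evHom c a) ≫ U.topIso.inv := by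
  rw [toLine, Scheme.Hom.comp_appTop, ← Category.assoc, ← Scheme.ΓSpecIso_inv_naturality,
    Scheme.Opens.toSpecΓ_appTop, Category.assoc, Iso.inv_hom_id_assoc]

lemma toLine_appTop_X {U : C.Opens} (a : Γ(C, U)) :
    (toLine c a).appTop ((Scheme.ΓSpecIso (.of k[X])).inv X) = U.topIso.inv a := by
  have := congrArg (fun (ψ : CommRingCat.of k[X] ⟶ Γ(U.toScheme, ⊤)) => ψ X)
    (ΓSpecIso_inv_comp_toLine_appTop c a)
  simpa using this

end ToLine

section Proper

variable [IsAlgClosed k] [IsIntegral C] [IsProper c] [SmoothOfRelativeDimension 1 c]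

include c in
lemma hasPoles_sec (t : C.functionField) : HasPoles (sec t) := by
  intro x hx
  have hval := valuationRing_stalk c
  obtain ⟨h1, h2⟩ := pole hval hx
  have ht : t ≠ 0 := by
    rintro rfl
    exact hx (mem_domain.mpr ⟨0, map_zero _⟩)
  have : Nonempty (domain t ⊓ domain t⁻¹ : C.Opens) :=
    ⟨⟨genericPoint C, genericPoint_mem_domain t, genericPoint_mem_domain t⁻¹⟩⟩
  exact ⟨domain t⁻¹, sec t⁻¹, h1, h2, map_sec_mul_map_sec_inv ht inf_le_left inf_le_right⟩

lemma existence_of_isProper : ValuativeCriterion.Existence c := by
  have h : UniversallyClosed c := inferInstance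
  rw [UniversallyClosed.eq_valuativeCriterion] at h
  exact h.1

theorem existence_toLine (t : C.functionField) :
    ValuativeCriterion.Existence (toLine c (sec t)) :=
  existence_of_hasPoles c (existence_of_isProper c) (hasPoles_sec c t) (toLine c (sec t))
    (lineStr k) (toLine_comp_lineStr c _) X (toLine_appTop_X c _)

include c in
lemma isLocallyNoetherian : IsLocallyNoetherian C := by
  have : LocallyOfFiniteType c := inferInstance
  exact LocallyOfFiniteType.isLocallyNoetherian c

lemma isSeparated_toLine {U : C.Opens} (a : Γ(C, U)) : IsSeparated (toLine c a) := by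
  have : IsSeparated (toLine c a ≫ lineStr k) := by
    rw [toLine_comp_lineStr]; infer_instance
  exact IsSeparated.of_comp (toLine c a) (lineStr k)

lemma locallyOfFiniteType_toLine {U : C.Opens} (a : Γ(C, U)) :
    LocallyOfFiniteType (toLine c a) := by
  have : LocallyOfFiniteType (toLine c a ≫ lineStr k) := by
    rw [toLine_comp_lineStr]; infer_instance
  exact locallyOfFiniteType_of_comp (toLine c a) (lineStr k)

lemma quasiCompact_toLine {U : C.Opens} (a : Γ(C, U)) : QuasiCompact (toLine c a) := by
  have := isLocallyNoetherian c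
  have : QuasiCompact (toLine c a ≫ lineStr k) := by
    rw [toLine_comp_lineStr]; infer_instance
  exact QuasiCompact.of_comp (toLine c a) (lineStr k)

/-- **Properness.** The morphism from the domain of definition of `t` to the affine line is
proper. -/
theorem isProper_toLine (t : C.functionField) : IsProper (toLine c (sec t)) := by
  have := isSeparated_toLine c (sec t)
  have := locallyOfFiniteType_toLine c (sec t)
  have := quasiCompact_toLine c (sec t)
  have : UniversallyClosed (toLine c (sec t)) :=
    UniversallyClosed.of_valuativeCriterion _ (existence_toLine c t)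
  exact {}

end Proper

section QuasiFinite

lemma ΓSpecIso_inv_comp_toLine_appLE {U : C.Opens} (a : Γ(C, U)) (V : U.toScheme.Opens) :
    (Scheme.ΓSpecIso (.of k[X])).inv ≫ (toLine c a).appLE ⊤ V le_top =
      CommRingCat.ofHom (evHom c a) ≫ C.presheaf.map (homOfLE (U.ι_image_le V)).op := by
  have h1 : (toLine c a).appLE ⊤ V le_top =
      (toLine c a).appTop ≫ U.toScheme.presheaf.map (homOfLE (le_top : V ≤ ⊤)).op := rfl
  rw [h1, ← Category.assoc, ΓSpecIso_inv_comp_toLine_appTop, Category.assoc]
  congr 1
  rw [Scheme.Opens.topIso_inv, Scheme.Opens.toScheme_presheaf_map]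
  exact (C.presheaf.map_comp _ _).symm

variable [IsAlgClosed k] [IsIntegral C] [SmoothOfRelativeDimension 1 c]

/-- Evaluation at a nonconstant function on a nonempty affine open is quasi-finite. -/
lemma quasiFinite_evHom {W : C.Opens} (hW : IsAffineOpen W) [Nonempty W] (a : Γ(C, W))
    (hinj : Function.Injective (evHom c a)) : (evHom c a).QuasiFinite := by
  have := isDedekindDomain_of_isAffineOpen c hW
  have : LocallyOfFiniteType c := by
    have := SmoothOfRelativeDimension.smooth 1 c
    infer_instance
  have hft := finiteType_structureHom c hW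
  algebraize [structureHom c W, evHom c a]
  have : IsScalarTower k k[X] Γ(C, W) := .of_algebraMap_eq' (by
    ext b
    simp [RingHom.algebraMap_toAlgebra])
  exact CurveAlg37.quasiFinite_of_injective (k := k) hinj

/-- **Quasi-finiteness.** For nonconstant `t`, the morphism from the domain of definition of `t`
to the affine line is locally quasi-finite. -/
theorem locallyQuasiFinite_toLine {t : C.functionField} (ht : IsNonconstant c t) :
    LocallyQuasiFinite (toLine c (sec t)) := by
  let ι := {V : (domain t).toScheme.affineOpens // (V.1 : Set (domain t).toScheme).Nonempty}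
  have hsup : ⨆ i : ι, ((i.1 : (domain t).toScheme.affineOpens) : (domain t).toScheme.Opens) = ⊤ := by
    rw [eq_top_iff]
    intro x _
    have hx : x ∈ ⨆ V : (domain t).toScheme.affineOpens, (V : (domain t).toScheme.Opens) := by
      rw [iSup_affineOpens_eq_top]; trivial
    rw [Opens.mem_iSup] at hx ⊢
    obtain ⟨V, hxV⟩ := hx
    exact ⟨⟨V, ⟨x, hxV⟩⟩, hxV⟩
  refine HasRingHomProperty.of_iSup_eq_top (P := @LocallyQuasiFinite) (fun i : ι => i.1) hsup
    fun i => ?_
  obtain ⟨⟨V, hV⟩, ⟨x, hxV⟩⟩ := i
  have hW : IsAffineOpen ((domain t).ι ''ᵁ V) := hV.image_of_isOpenImmersion (domain t).ι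
  have hWU : (domain t).ι ''ᵁ V ≤ domain t := (domain t).ι_image_le V
  have hne : Nonempty ((domain t).ι ''ᵁ V : C.Opens) := ⟨⟨(domain t).ι x, ⟨x, hxV, rfl⟩⟩⟩
  have hinj : Function.Injective (evHom c (C.presheaf.map (homOfLE hWU).op (sec t))) :=
    evHom_injective c ht _ (by rw [germToFunctionField_map, germToFunctionField_sec])
  have hqf := quasiFinite_evHom c hW _ hinj
  rw [← map_comp_evHom] at hqf
  have key := ΓSpecIso_inv_comp_toLine_appLE c (sec t) V
  refine RingHom.QuasiFinite.of_comp (g := (Scheme.ΓSpecIso (.of k[X])).inv.hom) ?_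
  rw [← CommRingCat.hom_comp, key]
  exact hqf

end QuasiFinite

section Finite

variable [IsAlgClosed k] [IsIntegral C] [IsProper c] [SmoothOfRelativeDimension 1 c]

/-- **Finiteness.** For nonconstant `t`, the morphism from the domain of definition of `t`
to the affine line is finite. -/
theorem isFinite_toLine {t : C.functionField} (ht : IsNonconstant c t) :
    IsFinite (toLine c (sec t)) := by
  have := isProper_toLine c t
  have := locallyQuasiFinite_toLine c ht
  exact IsFinite.of_isProper_of_locallyQuasiFinite _

/-- The domain of definition of a nonconstant rational function is affine. -/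
theorem isAffineOpen_domain {t : C.functionField} (ht : IsNonconstant c t) :
    IsAffineOpen (domain t) := by
  have := isFinite_toLine c ht
  exact isAffine_of_isAffineHom (toLine c (sec t))

/-- The ring of regular functions on the domain of `t` is finite over `k[t]`. -/
theorem finite_evHom {t : C.functionField} (ht : IsNonconstant c t) :
    (evHom c (sec t)).Finite := by
  have := isFinite_toLine c ht
  have h1 : (toLine c (sec t)).appTop.hom.Finite := Scheme.Hom.finite_appTop _
  have key := ΓSpecIso_inv_comp_toLine_appTop c (sec t)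
  have h2 : ((Scheme.ΓSpecIso (.of k[X])).inv ≫ (toLine c (sec t)).appTop ≫
      (domain t).topIso.hom).hom.Finite := by
    rw [CommRingCat.hom_comp, CommRingCat.hom_comp]
    refine RingHom.Finite.comp (RingHom.Finite.comp ?_ h1) ?_
    · exact RingHom.Finite.of_surjective _
        (domain t).topIso.commRingCatIsoToRingEquiv.surjective
    · exact RingHom.Finite.of_surjective _
        (Scheme.ΓSpecIso (.of k[X])).symm.commRingCatIsoToRingEquiv.surjective
  rw [← Category.assoc, key, Category.assoc, Iso.inv_hom_id, Category.comp_id] at h2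
  exact h2

end Finite


section Existence

variable [IsAlgClosed k] [IsIntegral C] [SmoothOfRelativeDimension 1 c]

/-- There is a nonconstant rational function. -/
theorem exists_isNonconstant : ∃ t : C.functionField, IsNonconstant c t := by
  obtain ⟨V, hV, hx, hsm⟩ := exists_chart c (genericPoint C)
  have : Nonempty V := ⟨⟨_, hx⟩⟩
  algebraize [structureHom c V]
  obtain ⟨a, ha⟩ :=
    SmoothAlg37.exists_transcendental_of_isStandardSmoothOfRelativeDimension_one k (R := Γ(C, V))
  refine ⟨C.germToFunctionField V a, ?_⟩
  rw [IsNonconstant, ← germToFunctionField_comp_evHom]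
  refine (C.germToFunctionField_injective V).comp ?_
  have h := transcendental_iff_injective.mp ha
  intro p q hpq
  apply h
  have h1 : ∀ r : k[X], Polynomial.aeval a r = evHom c a r := by
    intro r
    simp [evHom, Polynomial.aeval_def, RingHom.algebraMap_toAlgebra]
  rw [h1, h1]
  exact hpq

end Existence

/-- **Two-chart data** for a curve `c : C ⟶ Spec k`: two affine opens `U₀`, `U₁` covering `C`,
regular functions `t` on `U₀` and `s` on `U₁` with `U₀ ⊓ U₁ = D(t) = D(s)` and `t * s = 1` on
the overlap, such that `Γ(C, U₀)` is finite over `k[t]` and `Γ(C, U₁)` is finite over `k[s]`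
(with `t`, `s` transcendental over `k`), and all rings of sections are Dedekind domains. -/
structure TwoChartData (c : C ⟶ Spec (.of k)) where
  /-- the first chart -/
  U₀ : C.Opens
  /-- the second chart -/
  U₁ : C.Opens
  /-- the coordinate function on the first chart -/
  t : Γ(C, U₀)
  /-- the coordinate function on the second chart -/
  s : Γ(C, U₁)
  affine₀ : IsAffineOpen U₀
  affine₁ : IsAffineOpen U₁
  cover : U₀ ⊔ U₁ = ⊤
  inf_eq₀ : U₀ ⊓ U₁ = C.basicOpen t
  inf_eq₁ : U₀ ⊓ U₁ = C.basicOpen s
  mul_eq_one : C.presheaf.map (homOfLE (inf_le_left : U₀ ⊓ U₁ ≤ U₀)).op t *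
    C.presheaf.map (homOfLE (inf_le_right : U₀ ⊓ U₁ ≤ U₁)).op s = 1
  finite₀ : (evHom c t).Finite
  finite₁ : (evHom c s).Finite
  injective₀ : Function.Injective (evHom c t)
  injective₁ : Function.Injective (evHom c s)
  dedekind₀ : IsDedekindDomain Γ(C, U₀)
  dedekind₁ : IsDedekindDomain Γ(C, U₁)
  dedekind₀₁ : IsDedekindDomain Γ(C, U₀ ⊓ U₁)

section Main

variable [IsAlgClosed k] [IsIntegral C] [IsProper c] [SmoothOfRelativeDimension 1 c]

/-- The two-chart data attached to a nonconstant rational function. -/
noncomputable def twoChartDataOfIsNonconstant {t : C.functionField} (ht : IsNonconstant c t) :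
    TwoChartData c where
  U₀ := domain t
  U₁ := domain t⁻¹
  t := sec t
  s := sec t⁻¹
  affine₀ := isAffineOpen_domain c ht
  affine₁ := isAffineOpen_domain c ht.inv
  cover := domain_sup_domain_inv (valuationRing_stalk c) t
  inf_eq₀ := domain_inf_domain_inv ht.ne_zero
  inf_eq₁ := by
    have := domain_inf_domain_inv (inv_ne_zero ht.ne_zero)
    rw [inv_inv] at this
    rw [inf_comm]
    exact this
  mul_eq_one := by
    have : Nonempty (domain t ⊓ domain t⁻¹ : C.Opens) :=
      ⟨⟨genericPoint C, genericPoint_mem_domain t, genericPoint_mem_domain t⁻¹⟩⟩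
    exact map_sec_mul_map_sec_inv ht.ne_zero inf_le_left inf_le_right
  finite₀ := finite_evHom c ht
  finite₁ := finite_evHom c ht.inv
  injective₀ := evHom_injective c ht _ (germToFunctionField_sec t)
  injective₁ := evHom_injective c ht.inv _ (germToFunctionField_sec t⁻¹)
  dedekind₀ := isDedekindDomain_of_isAffineOpen c (isAffineOpen_domain c ht)
  dedekind₁ := isDedekindDomain_of_isAffineOpen c (isAffineOpen_domain c ht.inv)
  dedekind₀₁ := by
    have : Nonempty (domain t ⊓ domain t⁻¹ : C.Opens) :=
      ⟨⟨genericPoint C, genericPoint_mem_domain t, genericPoint_mem_domain t⁻¹⟩⟩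
    have haff : IsAffineOpen (domain t ⊓ domain t⁻¹) := by
      rw [domain_inf_domain_inv ht.ne_zero]
      exact (isAffineOpen_domain c ht).basicOpen _
    exact isDedekindDomain_of_isAffineOpen c haff

/-- **Main theorem of work package B2.** A smooth proper integral curve over an algebraically
closed field admits two-chart data. -/
theorem nonempty_twoChartData : Nonempty (TwoChartData c) := by
  obtain ⟨t, ht⟩ := exists_isNonconstant c
  exact ⟨twoChartDataOfIsNonconstant c ht⟩

end Main

end Fermat.Agent.JAC.B2.TwoChart37
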