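/-
Programme JAC (S25), work package B2, file 7 (helper37): further exports for the two-chart data.

* `structureHom_top_bijective`: `H⁰(C, 𝒪) = k`, and its two-chart shape
  `TwoChartData.eq_structureHom_of_map_eq`;
* evaluation at a `k`-point `ε : Spec k ⟶ C` (a section of `c`): `evalAt`, a retraction of the
  structure map;
* `exists_isNonconstant_of_section`: the coordinate function `t` can be chosen such that the
  base point lies in `U₀ ⊓ U₁`; `nonempty_pointedTwoChartData`;
* `t`, `s` are nonzerodivisors; `Γ(C, Uᵢ)` is finite free over `k[X]`;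
* the restriction maps `Γ(C, Uᵢ) → Γ(C, U₀ ⊓ U₁)` are localizations away from `t`, `s`.
-/
import Fermat.Agent.JAC.B2.TwoChart37

set_option autoImplicit false

open AlgebraicGeometry CategoryTheory TopologicalSpace Opposite Polynomial

namespace Fermat.Agent.JAC.B2.Export37

open Charts37 Domain37 Valuative37 TwoChart37

universe u

variable {k : Type u} [Field k] {C : Scheme.{u}} (c : C ⟶ Spec (.of k))

lemma appLE_top_top {X Y : Scheme.{u}} (f : X ⟶ Y) (e : (⊤ : X.Opens) ≤ f ⁻¹ᵁ ⊤) :
    f.appLE ⊤ ⊤ e = f.appTop := by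
  simp [Scheme.Hom.appLE, Scheme.Hom.appTop] <;> exact Category.comp_id _

section GlobalSections

variable [IsAlgClosed k] [IsIntegral C] [IsProper c]

/-- `H⁰(C, 𝒪) = k` for a proper integral scheme over an algebraically closed field. -/
theorem structureHom_top_bijective : Function.Bijective (structureHom c ⊤) := by
  have hint : (structureHom c ⊤).IsIntegral := by
    rw [structureHom_def, appLE_top_top]
    apply RingHom.isIntegral_respectsIso.2
      (e := (Scheme.ΓSpecIso (.of k)).symm.commRingCatIsoToRingEquiv)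
    exact isIntegral_appTop_of_universallyClosed c
  algebraize [structureHom c ⊤]
  exact IsAlgClosed.algebraMap_bijective_of_isIntegral

/-- A rational function which is regular everywhere is constant. -/
theorem exists_eq_structureHomF_of_domain_eq_top {f : C.functionField} (hf : domain f = ⊤) :
    ∃ v : k, f = structureHomF c v := by
  obtain ⟨v, hv⟩ := (structureHom_top_bijective c).2
    (C.presheaf.map (homOfLE (le_of_eq hf.symm)).op (sec f))
  refine ⟨v, ?_⟩
  rw [← germToFunctionField_structureHom c ⊤, hv, germToFunctionField_map,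
    germToFunctionField_sec]

/-- **`H⁰(C, 𝒪) = k`, two-chart shape.** Sections on two opens covering `C` which agree on the
overlap are the same constant. -/
theorem eq_structureHom_of_map_eq {U₀ U₁ : C.Opens} [Nonempty U₀] [Nonempty U₁]
    (hcover : U₀ ⊔ U₁ = ⊤) (a₀ : Γ(C, U₀)) (a₁ : Γ(C, U₁))
    (h : C.presheaf.map (homOfLE (inf_le_left : U₀ ⊓ U₁ ≤ U₀)).op a₀ =
      C.presheaf.map (homOfLE (inf_le_right : U₀ ⊓ U₁ ≤ U₁)).op a₁) :
    ∃ v : k, a₀ = structureHom c U₀ v ∧ a₁ = structureHom c U₁ v := by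
  have hne : Nonempty (U₀ ⊓ U₁ : C.Opens) :=
    ⟨⟨genericPoint C, genericPoint_mem_of_nonempty U₀ inferInstance,
      genericPoint_mem_of_nonempty U₁ inferInstance⟩⟩
  have h01 : C.germToFunctionField U₀ a₀ = C.germToFunctionField U₁ a₁ := by
    rw [← germToFunctionField_map (inf_le_left : U₀ ⊓ U₁ ≤ U₀) a₀, h, germToFunctionField_map]
  have hdom : domain (C.germToFunctionField U₀ a₀) = ⊤ := by
    rw [eq_top_iff, ← hcover]
    exact sup_le (le_domain_of_germ a₀ rfl) (le_domain_of_germ a₁ h01.symm)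
  obtain ⟨v, hv⟩ := exists_eq_structureHomF_of_domain_eq_top c hdom
  refine ⟨v, ?_, ?_⟩
  · apply C.germToFunctionField_injective U₀
    rw [hv, germToFunctionField_structureHom]
  · apply C.germToFunctionField_injective U₁
    rw [← h01, hv, germToFunctionField_structureHom]

end GlobalSections

section Evaluation

variable (ε : Spec (.of k) ⟶ C)

/-- Evaluation of sections at a `k`-point `ε : Spec k ⟶ C` lying in `V`. -/
noncomputable def evalAt (V : C.Opens) (h : ε ⁻¹ᵁ V = ⊤) : Γ(C, V) →+* k := pullHom ε V h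

lemma evalAt_map {V V' : C.Opens} (i : V' ≤ V) (h : ε ⁻¹ᵁ V = ⊤) (h' : ε ⁻¹ᵁ V' = ⊤)
    (b : Γ(C, V)) : evalAt ε V' h' (C.presheaf.map (homOfLE i).op b) = evalAt ε V h b :=
  pullHom_map ε i h h' b

variable {ε}

/-- Evaluation at a section of `c` is a retraction of the structure map. -/
lemma evalAt_structureHom (hε : ε ≫ c = 𝟙 _) (V : C.Opens) (h : ε ⁻¹ᵁ V = ⊤) (a : k) :
    evalAt ε V h (structureHom c V a) = a := by
  have h1 : c.appLE ⊤ V (le_preimage_top c V) ≫ ε.appLE V ⊤ h.ge =
      (ε ≫ c).appLE ⊤ ⊤ (by rw [hε]; exact le_rfl) :=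
    Scheme.Hom.appLE_comp_appLE ε c ⊤ V ⊤ (le_preimage_top c V) h.ge
  have h2 : (ε ≫ c).appLE ⊤ ⊤ (by rw [hε]; exact le_rfl) = 𝟙 _ := by
    have : ∀ (φ : Spec (.of k) ⟶ Spec (.of k)) (hφ : φ = 𝟙 _) (e : ⊤ ≤ φ ⁻¹ᵁ ⊤),
        φ.appLE ⊤ ⊤ e = 𝟙 _ := by
      rintro φ rfl e
      rw [appLE_top_top]
      rfl
    exact this _ hε _
  have h3 : (Scheme.ΓSpecIso (.of k)).inv ≫ c.appLE ⊤ V (le_preimage_top c V) ≫
      ε.appLE V ⊤ h.ge ≫ (Scheme.ΓSpecIso (.of k)).hom = 𝟙 _ := by
    rw [← Category.assoc (c.appLE _ _ _), h1, h2, Category.id_comp, Iso.inv_hom_id]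
  exact congrArg (fun (ψ : CommRingCat.of k ⟶ CommRingCat.of k) => ψ a) h3

lemma evalAt_evHom (hε : ε ≫ c = 𝟙 _) (V : C.Opens) (h : ε ⁻¹ᵁ V = ⊤) (a : Γ(C, V))
    (p : k[X]) : evalAt ε V h (evHom c a p) = p.eval (evalAt ε V h a) := by
  rw [evHom, Polynomial.coe_eval₂RingHom, Polynomial.hom_eval₂]
  have : (evalAt ε V h).comp (structureHom c V) = RingHom.id k := by
    ext b; exact evalAt_structureHom c hε V h b
  rw [this, Polynomial.eval₂_id]

end Evaluation

section BasePoint

variable [IsAlgClosed k] [IsIntegral C] [SmoothOfRelativeDimension 1 c]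

/-- The germ of a transcendental section is a nonconstant rational function. -/
lemma isNonconstant_germ {V : C.Opens} [Nonempty V] (a : Γ(C, V))
    (ha : Function.Injective (evHom c a)) : IsNonconstant c (C.germToFunctionField V a) := by
  rw [IsNonconstant, ← germToFunctionField_comp_evHom]
  exact (C.germToFunctionField_injective V).comp ha

/-- **Base point.** Given a `k`-point `ε` of `C`, there is a nonconstant rational function `t`
such that `ε` lies in the overlap of the domains of `t` and `t⁻¹`. -/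
theorem exists_isNonconstant_of_section {ε : Spec (.of k) ⟶ C} (hε : ε ≫ c = 𝟙 _) :
    ∃ t : C.functionField, IsNonconstant c t ∧ ε ⁻¹ᵁ (domain t ⊓ domain t⁻¹) = ⊤ := by
  let x : Spec (.of k) := (default : PrimeSpectrum k)
  obtain ⟨V, hV, hx, hsm⟩ := exists_chart c (ε x)
  have hne : Nonempty V := ⟨⟨_, hx⟩⟩
  have hεV : ε ⁻¹ᵁ V = ⊤ := opens_spec_field_eq_top _ x hx
  -- a transcendental element of the chart
  obtain ⟨a, ha⟩ : ∃ a : Γ(C, V), a ∉ Set.range (structureHom c V) := by
    algebraize [structureHom c V]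
    obtain ⟨a, ha⟩ := SmoothAlg37.exists_transcendental_of_isStandardSmoothOfRelativeDimension_one
      k (R := Γ(C, V))
    refine ⟨a, ?_⟩
    rintro ⟨b, rfl⟩
    exact ha (isAlgebraic_algebraMap b)
  -- normalise its value at the base point to `1`
  let a' : Γ(C, V) := a - structureHom c V (evalAt ε V hεV a) + 1
  have ha' : a' ∉ Set.range (structureHom c V) := by
    rintro ⟨b, hb⟩
    apply ha
    refine ⟨b + evalAt ε V hεV a - 1, ?_⟩
    rw [map_sub, map_add, map_one, hb]
    simp only [a']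
    ring
  have hval : evalAt ε V hεV a' = 1 := by
    simp only [a', map_add, map_sub, map_one, evalAt_structureHom c hε, sub_self, zero_add]
  have hinj : Function.Injective (evHom c a') := by
    algebraize [structureHom c V]
    have htr : Transcendental k a' := SmoothAlg37.transcendental_of_not_mem_range ha'
    have h := transcendental_iff_injective.mp htr
    intro p q hpq
    apply h
    have h1 : ∀ r : k[X], Polynomial.aeval a' r = evHom c a' r := by
      intro r
      simp [evHom, Polynomial.aeval_def, RingHom.algebraMap_toAlgebra]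
    rw [h1, h1]
    exact hpq
  refine ⟨C.germToFunctionField V a', isNonconstant_germ c a' hinj, ?_⟩
  set t := C.germToFunctionField V a' with ht
  have hVt : V ≤ domain t := le_domain_of_germ a' rfl
  have hεt : ε ⁻¹ᵁ domain t = ⊤ := by
    rw [eq_top_iff, ← hεV]
    exact ε.preimage_mono hVt
  have hunit : IsUnit (pullHom ε (domain t) hεt (sec t)) := by
    have h1 := pullHom_map ε hVt hεt hεV (sec t)
    rw [map_sec_eq a' rfl] at h1
    rw [← h1]
    change IsUnit (evalAt ε V hεV a')
    rw [hval]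
    exact isUnit_one
  have hne0 : t ≠ 0 := (isNonconstant_germ c a' hinj).ne_zero
  rw [domain_inf_domain_inv hne0]
  ext p
  simp only [Opens.coe_top, Set.mem_univ, iff_true]
  exact mem_basicOpen_of_isUnit_pullHom ε (domain t) hεt (sec t) hunit p

end BasePoint

/-- Two-chart data together with a base point lying in the overlap of the two charts. -/
structure PointedTwoChartData (c : C ⟶ Spec (.of k)) (ε : Spec (.of k) ⟶ C)
    extends TwoChartData c where
  preimage_eq_top : ε ⁻¹ᵁ (U₀ ⊓ U₁) = ⊤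

section Main

variable [IsAlgClosed k] [IsIntegral C] [IsProper c] [SmoothOfRelativeDimension 1 c]

/-- **Main theorem of B2, pointed version.** -/
theorem nonempty_pointedTwoChartData {ε : Spec (.of k) ⟶ C} (hε : ε ≫ c = 𝟙 _) :
    Nonempty (PointedTwoChartData c ε) := by
  obtain ⟨t, ht, hεt⟩ := exists_isNonconstant_of_section c hε
  exact ⟨{ toTwoChartData := twoChartDataOfIsNonconstant c ht, preimage_eq_top := hεt }⟩

end Main

namespace PointedTwoChartData

variable {c} {ε : Spec (.of k) ⟶ C} (D : PointedTwoChartData c ε)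

/-- The base point `e : Γ(C, U₀ ⊓ U₁) → k`. -/
noncomputable def e : Γ(C, D.U₀ ⊓ D.U₁) →+* k := evalAt ε _ D.preimage_eq_top

lemma e_structureHom (hε : ε ≫ c = 𝟙 _) (a : k) : D.e (structureHom c _ a) = a :=
  evalAt_structureHom c hε _ _ a

end PointedTwoChartData

namespace TwoChartDataExports

variable {c} (D : TwoChartData c)

lemma t_ne_zero : D.t ≠ 0 := by
  intro h
  have h1 : evHom c D.t X = evHom c D.t 0 := by rw [evHom_X, map_zero, h]
  exact X_ne_zero (D.injective₀ h1)

lemma s_ne_zero : D.s ≠ 0 := by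
  intro h
  have h1 : evHom c D.s X = evHom c D.s 0 := by rw [evHom_X, map_zero, h]
  exact X_ne_zero (D.injective₁ h1)

/-- (iii) `t` is a nonzerodivisor. -/
lemma t_mem_nonZeroDivisors : D.t ∈ nonZeroDivisors Γ(C, D.U₀) :=
  have := D.dedekind₀
  mem_nonZeroDivisors_of_ne_zero (t_ne_zero D)

/-- (iii) `s` is a nonzerodivisor. -/
lemma s_mem_nonZeroDivisors : D.s ∈ nonZeroDivisors Γ(C, D.U₁) :=
  have := D.dedekind₁
  mem_nonZeroDivisors_of_ne_zero (s_ne_zero D)

/-- (iv) `Γ(C, U₀)` is finite over `k[X]` (via `X ↦ t`). -/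
lemma finite₀' : @Module.Finite k[X] Γ(C, D.U₀) _ _ (evHom c D.t).toAlgebra.toModule :=
  D.finite₀

/-- (iv) `Γ(C, U₀)` is free over `k[X]` (via `X ↦ t`). -/
lemma free₀ : @Module.Free k[X] Γ(C, D.U₀) _ _ (evHom c D.t).toAlgebra.toModule := by
  have := D.dedekind₀
  have hfin := D.finite₀
  algebraize [evHom c D.t]
  have : Module.IsTorsionFree k[X] Γ(C, D.U₀) :=
    Module.isTorsionFree_iff_algebraMap_injective.mpr D.injective₀
  exact Module.free_of_finite_type_torsion_free'

/-- (iv) `Γ(C, U₁)` is free over `k[X]` (via `X ↦ s`). -/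
lemma free₁ : @Module.Free k[X] Γ(C, D.U₁) _ _ (evHom c D.s).toAlgebra.toModule := by
  have := D.dedekind₁
  have hfin := D.finite₁
  algebraize [evHom c D.s]
  have : Module.IsTorsionFree k[X] Γ(C, D.U₁) :=
    Module.isTorsionFree_iff_algebraMap_injective.mpr D.injective₁
  exact Module.free_of_finite_type_torsion_free'

/-- The restriction `Γ(C, U₀) → Γ(C, U₀ ⊓ U₁)` is the localization away from `t`. -/
lemma isLocalization₀ : @IsLocalization.Away Γ(C, D.U₀) _ D.t Γ(C, D.U₀ ⊓ D.U₁) _
    (C.presheaf.map (homOfLE (inf_le_left : D.U₀ ⊓ D.U₁ ≤ D.U₀)).op).hom.toAlgebra :=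
  D.affine₀.isLocalization_of_eq_basicOpen D.t (homOfLE inf_le_left) D.inf_eq₀

/-- The restriction `Γ(C, U₁) → Γ(C, U₀ ⊓ U₁)` is the localization away from `s`. -/
lemma isLocalization₁ : @IsLocalization.Away Γ(C, D.U₁) _ D.s Γ(C, D.U₀ ⊓ D.U₁) _
    (C.presheaf.map (homOfLE (inf_le_right : D.U₀ ⊓ D.U₁ ≤ D.U₁)).op).hom.toAlgebra :=
  D.affine₁.isLocalization_of_eq_basicOpen D.s (homOfLE inf_le_right) D.inf_eq₁

lemma nonempty₀ : Nonempty D.U₀ := by
  by_contra h
  have : Subsingleton Γ(C, D.U₀) := by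
    have hbot : D.U₀ = ⊥ := by
      ext x
      simp only [Opens.coe_bot, Set.mem_empty_iff_false, iff_false]
      exact fun hx => h ⟨⟨x, hx⟩⟩
    rw [hbot]
    infer_instance
  have := D.dedekind₀
  exact not_subsingleton Γ(C, D.U₀) ‹_›

lemma nonempty₁ : Nonempty D.U₁ := by
  by_contra h
  have : Subsingleton Γ(C, D.U₁) := by
    have hbot : D.U₁ = ⊥ := by
      ext x
      simp only [Opens.coe_bot, Set.mem_empty_iff_false, iff_false]
      exact fun hx => h ⟨⟨x, hx⟩⟩
    rw [hbot]
    infer_instance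
  have := D.dedekind₁
  exact not_subsingleton Γ(C, D.U₁) ‹_›

/-- (ii) **`H⁰(C, 𝒪) = k`** in the two-chart shape. -/
theorem eq_structureHom_of_map_eq [IsAlgClosed k] [IsIntegral C] [IsProper c]
    (a₀ : Γ(C, D.U₀)) (a₁ : Γ(C, D.U₁))
    (h : C.presheaf.map (homOfLE (inf_le_left : D.U₀ ⊓ D.U₁ ≤ D.U₀)).op a₀ =
      C.presheaf.map (homOfLE (inf_le_right : D.U₀ ⊓ D.U₁ ≤ D.U₁)).op a₁) :
    ∃ v : k, a₀ = structureHom c D.U₀ v ∧ a₁ = structureHom c D.U₁ v := by
  have := nonempty₀ D
  have := nonempty₁ D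
  exact Export37.eq_structureHom_of_map_eq c D.cover a₀ a₁ h

end TwoChartDataExports

end Fermat.Agent.JAC.B2.Export37
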