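/-
Programme JAC (S25), work package B2, file 9 (helper37): the CURVE block of the pinned plan,
instantiated with the rings of sections of two-chart data.

For `D : TwoChartData c` put `A₀ := Γ(C, U₀)`, `A₁ := Γ(C, U₁)`, `A₀₁ := Γ(C, U₀ ⊓ U₁)`.
The definitions `algK₀ …` below are the algebra structures of the CURVE block; they are *not*
global instances: activate them with `letI` (or `attribute [local instance]`) in consumers.
All statements are then literally in the CURVE block shape.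
-/
import Fermat.Agent.JAC.B2.Export37

set_option autoImplicit false

open AlgebraicGeometry CategoryTheory TopologicalSpace Opposite Polynomial

namespace Fermat.Agent.JAC.B2.CurveBlock37

open Charts37 Domain37 Valuative37 TwoChart37 Export37

universe u

variable {k : Type u} [Field k] {C : Scheme.{u}} {c : C ⟶ Spec (.of k)} (D : TwoChartData c)

/-- `A₀ = Γ(C, U₀)` -/
abbrev A₀ : Type u := Γ(C, D.U₀)
/-- `A₁ = Γ(C, U₁)` -/
abbrev A₁ : Type u := Γ(C, D.U₁)
/-- `A₀₁ = Γ(C, U₀ ⊓ U₁)` -/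
abbrev A₀₁ : Type u := Γ(C, D.U₀ ⊓ D.U₁)

/-- restriction `A₀ → A₀₁` -/
noncomputable def res₀ : A₀ D →+* A₀₁ D :=
  (C.presheaf.map (homOfLE (inf_le_left : D.U₀ ⊓ D.U₁ ≤ D.U₀)).op).hom
/-- restriction `A₁ → A₀₁` -/
noncomputable def res₁ : A₁ D →+* A₀₁ D :=
  (C.presheaf.map (homOfLE (inf_le_right : D.U₀ ⊓ D.U₁ ≤ D.U₁)).op).hom

/-- the `k`-algebra structure on `A₀` -/
@[reducible] noncomputable def algK₀ : Algebra k (A₀ D) := (structureHom c D.U₀).toAlgebra
/-- the `k`-algebra structure on `A₁` -/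
@[reducible] noncomputable def algK₁ : Algebra k (A₁ D) := (structureHom c D.U₁).toAlgebra
/-- the `k`-algebra structure on `A₀₁` -/
@[reducible] noncomputable def algK₀₁ : Algebra k (A₀₁ D) :=
  (structureHom c (D.U₀ ⊓ D.U₁)).toAlgebra
/-- the `A₀`-algebra structure on `A₀₁` -/
@[reducible] noncomputable def alg₀ : Algebra (A₀ D) (A₀₁ D) := (res₀ D).toAlgebra
/-- the `A₁`-algebra structure on `A₀₁` -/
@[reducible] noncomputable def alg₁ : Algebra (A₁ D) (A₀₁ D) := (res₁ D).toAlgebra
/-- the `k[X]`-algebra structure on `A₀`, `X ↦ t` -/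
@[reducible] noncomputable def algX₀ : Algebra k[X] (A₀ D) := (evHom c D.t).toAlgebra
/-- the `k[X]`-algebra structure on `A₁`, `X ↦ s` -/
@[reducible] noncomputable def algX₁ : Algebra k[X] (A₁ D) := (evHom c D.s).toAlgebra

section
attribute [local instance] algK₀ algK₁ algK₀₁ alg₀ alg₁ algX₀ algX₁

lemma algebraMap_k₀ : algebraMap k (A₀ D) = structureHom c D.U₀ := rfl
lemma algebraMap_k₁ : algebraMap k (A₁ D) = structureHom c D.U₁ := rfl
lemma algebraMap_k₀₁ : algebraMap k (A₀₁ D) = structureHom c (D.U₀ ⊓ D.U₁) := rfl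
lemma algebraMap_₀ : algebraMap (A₀ D) (A₀₁ D) = res₀ D := rfl
lemma algebraMap_₁ : algebraMap (A₁ D) (A₀₁ D) = res₁ D := rfl
lemma algebraMap_X₀ : algebraMap k[X] (A₀ D) = evHom c D.t := rfl
lemma algebraMap_X₁ : algebraMap k[X] (A₁ D) = evHom c D.s := rfl

instance isScalarTower₀ : IsScalarTower k (A₀ D) (A₀₁ D) :=
  .of_algebraMap_eq' (map_comp_structureHom c inf_le_left).symm

instance isScalarTower₁ : IsScalarTower k (A₁ D) (A₀₁ D) :=
  .of_algebraMap_eq' (map_comp_structureHom c inf_le_right).symm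

instance isScalarTowerX₀ : IsScalarTower k k[X] (A₀ D) :=
  .of_algebraMap_eq' (by ext b; simp [RingHom.algebraMap_toAlgebra])

instance isScalarTowerX₁ : IsScalarTower k k[X] (A₁ D) :=
  .of_algebraMap_eq' (by ext b; simp [RingHom.algebraMap_toAlgebra])

/-- the `k[X]`-algebra structure is the one given by `aeval t` -/
lemma algebraMap_X₀_eq_aeval : (algebraMap k[X] (A₀ D) : k[X] → A₀ D) = Polynomial.aeval D.t := by
  ext p
  simp [RingHom.algebraMap_toAlgebra, evHom, Polynomial.aeval_def]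

lemma algebraMap_X₁_eq_aeval : (algebraMap k[X] (A₁ D) : k[X] → A₁ D) = Polynomial.aeval D.s := by
  ext p
  simp [RingHom.algebraMap_toAlgebra, evHom, Polynomial.aeval_def]

instance isLocalization_t : IsLocalization.Away D.t (A₀₁ D) :=
  TwoChartDataExports.isLocalization₀ D

instance isLocalization_s : IsLocalization.Away D.s (A₀₁ D) :=
  TwoChartDataExports.isLocalization₁ D

lemma hts : algebraMap (A₀ D) (A₀₁ D) D.t * algebraMap (A₁ D) (A₀₁ D) D.s = 1 := D.mul_eq_one

instance finiteX₀ : Module.Finite k[X] (A₀ D) := D.finite₀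
instance finiteX₁ : Module.Finite k[X] (A₁ D) := D.finite₁
instance freeX₀ : Module.Free k[X] (A₀ D) := TwoChartDataExports.free₀ D
instance freeX₁ : Module.Free k[X] (A₁ D) := TwoChartDataExports.free₁ D

instance isDedekindDomain₀ : IsDedekindDomain (A₀ D) := D.dedekind₀
instance isDedekindDomain₁ : IsDedekindDomain (A₁ D) := D.dedekind₁
instance isDedekindDomain₀₁ : IsDedekindDomain (A₀₁ D) := D.dedekind₀₁

lemma t_mem_nonZeroDivisors : D.t ∈ nonZeroDivisors (A₀ D) :=
  TwoChartDataExports.t_mem_nonZeroDivisors D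

lemma s_mem_nonZeroDivisors : D.s ∈ nonZeroDivisors (A₁ D) :=
  TwoChartDataExports.s_mem_nonZeroDivisors D

instance finiteTypeK₀ [LocallyOfFiniteType c] : Algebra.FiniteType k (A₀ D) :=
  finiteType_structureHom c D.affine₀

instance finiteTypeK₁ [LocallyOfFiniteType c] : Algebra.FiniteType k (A₁ D) :=
  finiteType_structureHom c D.affine₁

/-- `H⁰(C, 𝒪) = k` in the CURVE block shape. -/
theorem h0_eq [IsAlgClosed k] [IsIntegral C] [IsProper c] (a₀ : A₀ D) (a₁ : A₁ D)
    (h : algebraMap (A₀ D) (A₀₁ D) a₀ = algebraMap (A₁ D) (A₀₁ D) a₁) :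
    ∃ v : k, a₀ = algebraMap k (A₀ D) v ∧ a₁ = algebraMap k (A₁ D) v :=
  TwoChartDataExports.eq_structureHom_of_map_eq D a₀ a₁ h

end

section Pointed

variable {ε : Spec (.of k) ⟶ C} (P : PointedTwoChartData c ε)

attribute [local instance] algK₀₁

/-- The base point as a `k`-algebra homomorphism `e : A₀₁ →ₐ[k] k`. -/
noncomputable def e (hε : ε ≫ c = 𝟙 _) : A₀₁ P.toTwoChartData →ₐ[k] k :=
  { P.e with commutes' := fun a => P.e_structureHom hε a }

lemma e_apply (hε : ε ≫ c = 𝟙 _) (a : A₀₁ P.toTwoChartData) : e P hε a = P.e a := rfl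

end Pointed

end Fermat.Agent.JAC.B2.CurveBlock37
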