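/-
Programme JAC (S25), work package B2, file 8 (helper37): every affine open of a smooth curve is
covered by basic opens which are standard smooth of relative dimension one over `k`
(the hypothesis of the base change theorem `K ⊗[k] Γ(C, U)` Dedekind).
-/
import Fermat.Agent.JAC.B2.Charts37

set_option autoImplicit false

open AlgebraicGeometry CategoryTheory TopologicalSpace Opposite

namespace Fermat.Agent.JAC.B2.Geom37

open Charts37

universe u

variable {k : Type u} [Field k] {C : Scheme.{u}} (c : C ⟶ Spec (.of k))

/-- Around every point of an affine open `U` of a smooth curve there is a basic open `D(f)` of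
`U` whose ring of sections is standard smooth of relative dimension one over `k`. -/
theorem exists_basicOpen_isStandardSmooth [SmoothOfRelativeDimension 1 c] {U : C.Opens}
    (hU : IsAffineOpen U) (x : C) (hx : x ∈ U) :
    ∃ f : Γ(C, U), x ∈ C.basicOpen f ∧
      (structureHom c (C.basicOpen f)).IsStandardSmoothOfRelativeDimension 1 := by
  obtain ⟨V, hV, hxV, hsm⟩ := exists_chart c x
  obtain ⟨f, g, hfg, hxf⟩ := exists_basicOpen_le_affine_inter hU hV x ⟨hx, hxV⟩
  refine ⟨f, hxf, ?_⟩
  have hle : C.basicOpen f ≤ V := hfg ▸ C.basicOpen_le g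
  have hloc := hV.isLocalization_of_eq_basicOpen g (homOfLE hle) hfg
  rw [← map_comp_structureHom c hle]
  let _ : Algebra Γ(C, V) Γ(C, C.basicOpen f) := (C.presheaf.map (homOfLE hle).op).hom.toAlgebra
  exact (RingHom.isStandardSmoothOfRelativeDimension_stableUnderCompositionWithLocalizationAway
    1).right Γ(C, C.basicOpen f) g (structureHom c V) hsm

/-- The covering hypothesis in ideal-theoretic form: for every maximal ideal `m` of `Γ(C, U)`
there is `f ∉ m` such that `Γ(C, D(f))` (a localization of `Γ(C, U)` away from `f`) is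
standard smooth of relative dimension one over `k`. -/
theorem exists_notMem_isStandardSmooth [SmoothOfRelativeDimension 1 c] {U : C.Opens}
    (hU : IsAffineOpen U) (m : Ideal Γ(C, U)) [hm : m.IsMaximal] :
    ∃ f : Γ(C, U), f ∉ m ∧
      @IsLocalization.Away Γ(C, U) _ f Γ(C, C.basicOpen f) _
        (C.presheaf.map (homOfLE (C.basicOpen_le f)).op).hom.toAlgebra ∧
      (structureHom c (C.basicOpen f)).IsStandardSmoothOfRelativeDimension 1 := by
  let y : PrimeSpectrum Γ(C, U) := ⟨m, hm.isPrime⟩
  have hy : hU.fromSpec y ∈ U := by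
    rw [← SetLike.mem_coe, ← hU.range_fromSpec]
    exact Set.mem_range_self y
  obtain ⟨f, hxf, hsm⟩ := exists_basicOpen_isStandardSmooth c hU (hU.fromSpec y) hy
  refine ⟨f, ?_, hU.isLocalization_basicOpen f, hsm⟩
  have h1 : y ∈ hU.fromSpec ⁻¹ᵁ C.basicOpen f := hxf
  rw [hU.fromSpec_preimage_basicOpen] at h1
  exact h1

end Fermat.Agent.JAC.B2.Geom37
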