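/-
Programme JAC (S25), work package B2, file 10 (helper37): the geometric hypothesis `hgeom` of the
CURVE block.  For every affine open `U` of a smooth curve `C` over an algebraically closed field
`k` with `Γ(C, U)` a domain, and every field extension `K/k`, the base change `K ⊗[k] Γ(C, U)` is
a Dedekind domain.  In particular this holds for the three rings `A₀`, `A₁`, `A₀₁` of two-chart
data.  (Uses helper69's `isDedekindDomain_baseChange_of_cover`.)
-/
import Fermat.Agent.JAC.B2.CurveBlock37
import Fermat.Agent.JAC.B2.Geom37
import Fermat.Agent.JAC.Alg.DedekindCover69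

set_option autoImplicit false
set_option linter.style.haveILetI false
set_option linter.unusedSectionVars false

open AlgebraicGeometry CategoryTheory TopologicalSpace Opposite Polynomial TensorProduct

namespace Fermat.Agent.JAC.B2.HGeom37

open Charts37 Domain37 Valuative37 TwoChart37 Export37 CurveBlock37 Geom37

universe u v

variable {k : Type u} [Field k] {C : Scheme.{u}} (c : C ⟶ Spec (.of k))

/-- **Geometric Dedekindness of affine pieces of a smooth curve.**  `k` algebraically closed,
`C/k` smooth of relative dimension one, `U` an affine open with `Γ(C, U)` a domain, `K/k` any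
field extension: `K ⊗[k] Γ(C, U)` is a Dedekind domain. -/
theorem isDedekindDomain_baseChange_sections [IsAlgClosed k] [SmoothOfRelativeDimension 1 c]
    {U : C.Opens} (hU : IsAffineOpen U) [IsDomain Γ(C, U)] (K : Type v) [Field K] [Algebra k K] :
    letI : Algebra k Γ(C, U) := (structureHom c U).toAlgebra
    IsDedekindDomain (K ⊗[k] Γ(C, U)) := by
  letI : Algebra k Γ(C, U) := (structureHom c U).toAlgebra
  haveI : LocallyOfFiniteType c := by
    have := SmoothOfRelativeDimension.smooth 1 c
    infer_instance
  haveI : Algebra.FiniteType k Γ(C, U) := finiteType_structureHom c hU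
  refine Alg.DedekindCover69.isDedekindDomain_baseChange_of_cover k K Γ(C, U) (fun m hm => ?_)
  obtain ⟨f, hfm, hloc, hsm⟩ := exists_notMem_isStandardSmooth c hU m
  letI : Algebra Γ(C, U) Γ(C, C.basicOpen f) :=
    (C.presheaf.map (homOfLE (C.basicOpen_le f)).op).hom.toAlgebra
  letI : Algebra k Γ(C, C.basicOpen f) := (structureHom c (C.basicOpen f)).toAlgebra
  refine ⟨f, hfm, Γ(C, C.basicOpen f), inferInstance, inferInstance, inferInstance, ?_, hloc, ?_⟩
  · exact .of_algebraMap_eq' (map_comp_structureHom c (C.basicOpen_le f)).symm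
  · exact hsm

/-- the same statement, also producing the domain property of the base change (no smoothness
needed). -/
theorem isDomain_baseChange_sections [IsAlgClosed k] {U : C.Opens} [IsDomain Γ(C, U)]
    (K : Type v) [Field K] [Algebra k K] :
    letI : Algebra k Γ(C, U) := (structureHom c U).toAlgebra
    IsDomain (K ⊗[k] Γ(C, U)) := by
  letI : Algebra k Γ(C, U) := (structureHom c U).toAlgebra
  exact Alg.TensorDomain69.isDomain_baseChange k K Γ(C, U)

section CurveBlock

variable {c}
variable [IsAlgClosed k] [SmoothOfRelativeDimension 1 c] (D : TwoChartData c)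
  (K : Type v) [Field K] [Algebra k K]

attribute [local instance] algK₀ algK₁ algK₀₁ alg₀ alg₁ algX₀ algX₁

/-- `hgeom`, first chart: `K ⊗[k] A₀` is a Dedekind domain. -/
theorem isDedekindDomain_baseChange₀ : IsDedekindDomain (K ⊗[k] A₀ D) :=
  haveI : IsDomain Γ(C, D.U₀) := D.dedekind₀.toIsDomain
  isDedekindDomain_baseChange_sections c D.affine₀ K

/-- `hgeom`, second chart: `K ⊗[k] A₁` is a Dedekind domain. -/
theorem isDedekindDomain_baseChange₁ : IsDedekindDomain (K ⊗[k] A₁ D) :=
  haveI : IsDomain Γ(C, D.U₁) := D.dedekind₁.toIsDomain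
  isDedekindDomain_baseChange_sections c D.affine₁ K

/-- the intersection of the two charts is affine -/
theorem isAffineOpen_inf : IsAffineOpen (D.U₀ ⊓ D.U₁) := by
  rw [D.inf_eq₀]
  exact D.affine₀.basicOpen D.t

/-- `hgeom`, intersection: `K ⊗[k] A₀₁` is a Dedekind domain. -/
theorem isDedekindDomain_baseChange₀₁ : IsDedekindDomain (K ⊗[k] A₀₁ D) :=
  haveI : IsDomain Γ(C, D.U₀ ⊓ D.U₁) := D.dedekind₀₁.toIsDomain
  isDedekindDomain_baseChange_sections c (isAffineOpen_inf D) K

/-- `hgeom`, intersection, domain form. -/
theorem isDomain_baseChange₀₁ : IsDomain (K ⊗[k] A₀₁ D) :=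
  (isDedekindDomain_baseChange₀₁ D K).toIsDomain

end CurveBlock

end Fermat.Agent.JAC.B2.HGeom37
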