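/-
Programme JAC (S25), work package B2, file 12 (helper37): the geometric fibres of the curve in the
place-language fibre theory (`Fibre/Setting38`, `Fibre/Core38`).

For `D : TwoChartData c` over an algebraically closed field `k` and any field extension `K/k`:
the rings `K ⊗[k] A₀`, `K ⊗[k] A₁`, `K ⊗[k] A₀₁` with `F := Frac (K ⊗[k] A₀₁)` satisfy the
two-chart interface `Core38.TwoChart`, with `H¹(O(m·∞)) = 0` for `m ≫ 0`.
Also: coordinates of `A₀` over `k[t]` and of `A₁` over `k[s]` (the hypotheses `hb0`, `hb1` of the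
Frame chapter).
-/
import Fermat.Agent.JAC.B2.HGeom37
import Fermat.Agent.JAC.Fibre.ConstExt37

set_option autoImplicit false
set_option linter.unusedSectionVars false
set_option linter.style.haveILetI false

open AlgebraicGeometry CategoryTheory TopologicalSpace Opposite Polynomial TensorProduct
open scoped Fermat.Agent.JAC.Core.ConstFamily36

namespace Fermat.Agent.JAC.B2.FibreSetting37

open Charts37 Domain37 Valuative37 TwoChart37 Export37 CurveBlock37 HGeom37
open Fermat.Agent.JAC.Fibre.Core38 Fermat.Agent.JAC.Fibre.Chart38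
  Fermat.Agent.JAC.Fibre.Setting38 Fermat.Agent.JAC.Fibre.ConstExt37

universe u

variable {k : Type u} [Field k] {C : Scheme.{u}} {c : C ⟶ Spec (.of k)} (D : TwoChartData c)

attribute [local instance] algK₀ algK₁ algK₀₁ alg₀ alg₁

/-- Coordinates of `A₀` over `k[t]`. -/
theorem exists_coords₀ : ∃ (n : ℕ) (a : Fin n → A₀ D),
    Function.Bijective (fun p : Fin n → k[X] => ∑ j, aeval D.t (p j) * a j) :=
  haveI : IsDomain (A₀ D) := D.dedekind₀.toIsDomain
  Frame.CurveInput65.exists_coords_of_ringHom D.t (evHom c D.t) (fun b => evHom_C c D.t b)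
    (evHom_X c D.t) D.finite₀ D.injective₀

/-- Coordinates of `A₁` over `k[s]`. -/
theorem exists_coords₁ : ∃ (n : ℕ) (a : Fin n → A₁ D),
    Function.Bijective (fun p : Fin n → k[X] => ∑ j, aeval D.s (p j) * a j) :=
  haveI : IsDomain (A₁ D) := D.dedekind₁.toIsDomain
  Frame.CurveInput65.exists_coords_of_ringHom D.s (evHom c D.s) (fun b => evHom_C c D.s b)
    (evHom_X c D.s) D.finite₁ D.injective₁

variable [IsAlgClosed k] [SmoothOfRelativeDimension 1 c] (K : Type u) [Field K] [Algebra k K]

/-- **The geometric fibres of the curve satisfy the two-chart interface** of the fibre theory. -/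
theorem exists_twoChart_fibre :
    haveI := isDedekindDomain_baseChange₀ D K
    haveI := isDedekindDomain_baseChange₁ D K
    haveI := isDedekindDomain_baseChange₀₁ D K
    haveI := isFractionRing₀ (k := k) (A01 := A₀₁ D) D.t K
    haveI := isFractionRing₁ (k := k) (A01 := A₀₁ D) D.s K
    ∃ T : TwoChart (chartSet (K := K) (F := FF k (A₀₁ D) K) (K ⊗[k] A₀ D))
        (chartSet (K := K) (F := FF k (A₀₁ D) K) (K ⊗[k] A₁ D)),
      ∃ m₀ : ℕ, ∀ m : ℕ, m₀ ≤ m →
        h1n (chartSet (K := K) (F := FF k (A₀₁ D) K) (K ⊗[k] A₀ D))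
          (chartSet (K := K) (F := FF k (A₀₁ D) K) (K ⊗[k] A₁ D))
          (m • divInfty T.toPre (algebraMap (K ⊗[k] A₀ D) (FF k (A₀₁ D) K) ((1 : K) ⊗ₜ[k] D.t))
            (left_ne_zero_of_mul_eq_one (hts_FF D.t D.s K (hts D)))) = 0 := by
  haveI := isDedekindDomain_baseChange₀ D K
  haveI := isDedekindDomain_baseChange₁ D K
  haveI := isDedekindDomain_baseChange₀₁ D K
  obtain ⟨n0, a0, ha0⟩ := exists_coords₀ D
  obtain ⟨n1, a1, ha1⟩ := exists_coords₁ D
  exact exists_twoChart D.t D.s K (hts D) ha0 ha1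

end Fermat.Agent.JAC.B2.FibreSetting37
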