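/-
Programme JAC (S25), work package B2, file 11 (helper37): adapter between the two-chart data of
B2 and helper57's chart cover `Bridge/ChartCover57` (the input shape of B3).

* `structureHom c U = ChartCover57.kToSections c U` (so `algK₀ = sectionsAlgebra c U₀` etc.);
* a morphism `l : Spec R ⟶ X` landing in an affine open `V` is `Spec (pullHom l V h) ≫ fromSpec`;
* for `D : TwoChartData c`: the three charts `ι₀ ι₁ ι₀₁ : Spec A_* ⟶ C`, over `Spec k`, open
  immersions with ranges `U₀`, `U₁`, `U₀ ⊓ U₁`, covering `C`, compatible with the restrictions;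
* for pointed data: the base point is `Spec e ≫ ι₀₁`.
-/
import Fermat.Agent.JAC.B2.CurveBlock37
import Fermat.Agent.JAC.Bridge.ChartCover57

set_option autoImplicit false

open AlgebraicGeometry CategoryTheory TopologicalSpace Opposite Polynomial

namespace Fermat.Agent.JAC.B2.Adapter37

open Charts37 Domain37 Valuative37 TwoChart37 Export37 CurveBlock37
open Fermat.Agent.JAC.Bridge

universe u

section General

/-- A morphism from an affine scheme landing in an affine open factors through the chart. -/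
theorem specMap_pullHom_fromSpec {R : CommRingCat.{u}} {X : Scheme.{u}} (l : Spec R ⟶ X)
    {V : X.Opens} (hV : IsAffineOpen V) (h : l ⁻¹ᵁ V = ⊤) :
    Spec.map (CommRingCat.ofHom (pullHom l V h)) ≫ hV.fromSpec = l := by
  have h1 := IsAffineOpen.SpecMap_appLE_fromSpec l hV (isAffineOpen_top (Spec R)) h.ge
  rw [IsAffineOpen.fromSpec_top, Scheme.isoSpec_Spec_inv] at h1
  have h2 : CommRingCat.ofHom (pullHom l V h) = l.appLE V ⊤ h.ge ≫ (Scheme.ΓSpecIso R).hom := rfl
  rw [h2, Spec.map_comp, Category.assoc, h1, ← Category.assoc, ← Spec.map_comp,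
    Iso.inv_hom_id, Spec.map_id]
  exact Category.id_comp l

end General

variable {k : Type u} [Field k] {C : Scheme.{u}} (c : C ⟶ Spec (.of k))

/-- The structure map of B2 is the one of `ChartCover57`. -/
theorem structureHom_eq_kToSections (U : C.Opens) :
    structureHom c U = ChartCover57.kToSections c U := rfl

variable {c}
variable (D : TwoChartData c)

/-- `U₀ ⊓ U₁` is affine. -/
theorem affine₀₁ : IsAffineOpen (D.U₀ ⊓ D.U₁) := by
  rw [D.inf_eq₀]
  exact D.affine₀.basicOpen D.t

/-- the chart `Spec A₀ ⟶ C` -/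
noncomputable def ι₀ : Spec (CommRingCat.of (A₀ D)) ⟶ C := D.affine₀.fromSpec
/-- the chart `Spec A₁ ⟶ C` -/
noncomputable def ι₁ : Spec (CommRingCat.of (A₁ D)) ⟶ C := D.affine₁.fromSpec
/-- the chart `Spec A₀₁ ⟶ C` -/
noncomputable def ι₀₁ : Spec (CommRingCat.of (A₀₁ D)) ⟶ C := (affine₀₁ D).fromSpec

instance : IsOpenImmersion (ι₀ D) := inferInstanceAs (IsOpenImmersion D.affine₀.fromSpec)
instance : IsOpenImmersion (ι₁ D) := inferInstanceAs (IsOpenImmersion D.affine₁.fromSpec)
instance : IsOpenImmersion (ι₀₁ D) := inferInstanceAs (IsOpenImmersion (affine₀₁ D).fromSpec)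

section
attribute [local instance] algK₀ algK₁ algK₀₁ alg₀ alg₁

theorem hι₀ : ι₀ D ≫ c = Spec.map (CommRingCat.ofHom (algebraMap k (A₀ D))) :=
  ChartCover57.fromSpec_comp c D.affine₀

theorem hι₁ : ι₁ D ≫ c = Spec.map (CommRingCat.ofHom (algebraMap k (A₁ D))) :=
  ChartCover57.fromSpec_comp c D.affine₁

theorem hι₀₁ : ι₀₁ D ≫ c = Spec.map (CommRingCat.ofHom (algebraMap k (A₀₁ D))) :=
  ChartCover57.fromSpec_comp c (affine₀₁ D)

theorem opensRange_ι₀ : (ι₀ D).opensRange = D.U₀ := D.affine₀.opensRange_fromSpec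
theorem opensRange_ι₁ : (ι₁ D).opensRange = D.U₁ := D.affine₁.opensRange_fromSpec
theorem opensRange_ι₀₁ : (ι₀₁ D).opensRange = D.U₀ ⊓ D.U₁ := (affine₀₁ D).opensRange_fromSpec

theorem opensRange_sup : (ι₀ D).opensRange ⊔ (ι₁ D).opensRange = ⊤ := by
  rw [opensRange_ι₀, opensRange_ι₁, D.cover]

theorem opensRange_inf : (ι₀ D).opensRange ⊓ (ι₁ D).opensRange = (ι₀₁ D).opensRange := by
  rw [opensRange_ι₀, opensRange_ι₁, opensRange_ι₀₁]

/-- the chart of the overlap is the restriction of the first chart -/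
theorem specMap_algebraMap_ι₀ :
    Spec.map (CommRingCat.ofHom (algebraMap (A₀ D) (A₀₁ D))) ≫ ι₀ D = ι₀₁ D :=
  D.affine₀.map_fromSpec (affine₀₁ D) (homOfLE (inf_le_left : D.U₀ ⊓ D.U₁ ≤ D.U₀)).op

/-- the chart of the overlap is the restriction of the second chart -/
theorem specMap_algebraMap_ι₁ :
    Spec.map (CommRingCat.ofHom (algebraMap (A₁ D) (A₀₁ D))) ≫ ι₁ D = ι₀₁ D :=
  D.affine₁.map_fromSpec (affine₀₁ D) (homOfLE (inf_le_right : D.U₀ ⊓ D.U₁ ≤ D.U₁)).op

end

section Pointed

variable {ε : Spec (.of k) ⟶ C} (P : PointedTwoChartData c ε)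

attribute [local instance] algK₀₁

/-- The base point lies in the chart `ι₀₁`, as the `k`-point `e`. -/
theorem specMap_e_ι₀₁ (hε : ε ≫ c = 𝟙 _) :
    Spec.map (CommRingCat.ofHom (e P hε).toRingHom) ≫ ι₀₁ P.toTwoChartData = ε :=
  specMap_pullHom_fromSpec ε (affine₀₁ P.toTwoChartData) P.preimage_eq_top

/-- the hypothesis `he` of `ChartCover57.rigSection_eq`, for a section `ε` in Prelude form -/
theorem specMap_e_ι₀₁' (ε : NeronModelInfra.SchemeHomOver (𝟙 (Spec (CommRingCat.of k))) c)
    (P : PointedTwoChartData c ε.1) :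
    Spec.map (CommRingCat.ofHom (e P ε.2).toRingHom) ≫ ι₀₁ P.toTwoChartData = ε.1 :=
  specMap_e_ι₀₁ P ε.2

/-- **B2 entry point in Prelude form**: pointed two-chart data for a smooth proper integral curve
with a section `ε`. -/
theorem nonempty_pointedTwoChartData_of_section [IsAlgClosed k] [IsIntegral C] [IsProper c]
    [SmoothOfRelativeDimension 1 c]
    (ε : NeronModelInfra.SchemeHomOver (𝟙 (Spec (CommRingCat.of k))) c) :
    Nonempty (PointedTwoChartData c ε.1) :=
  nonempty_pointedTwoChartData c ε.2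

end Pointed

end Fermat.Agent.JAC.B2.Adapter37
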