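/-
Programme JAC (S25), work package B2, file 13 (helper37): additivity of the degree on the
geometric fibres of the curve (input `hadd` of the final wiring map), for the two-chart data of B2.
-/
import Fermat.Agent.JAC.B2.FibreSetting37
import Fermat.Agent.JAC.Fibre.DegAddConst37

set_option autoImplicit false
set_option linter.unusedSectionVars false
set_option linter.style.haveILetI false

open AlgebraicGeometry CategoryTheory TopologicalSpace Opposite Polynomial TensorProduct
open scoped Fermat.Agent.JAC.Core.ConstFamily36

namespace Fermat.Agent.JAC.B2.DegAdd37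

open Charts37 Domain37 Valuative37 TwoChart37 Export37 CurveBlock37 HGeom37 FibreSetting37
open Fermat.Agent.JAC.Core.Degree36 Fermat.Agent.JAC.Core.AlgAtlas36
  Fermat.Agent.JAC.Fibre.DegAddConst37

universe u

variable {k : Type u} [Field k] {C : Scheme.{u}} {c : C ⟶ Spec (.of k)} (D : TwoChartData c)
  [IsAlgClosed k] [SmoothOfRelativeDimension 1 c] (K : Type u) [Field K] [Algebra k K]

attribute [local instance] algK₀ algK₁ algK₀₁ alg₀ alg₁

/-- **`hadd`**: the degree is additive on classes of line diagrams over every fibre `C_K`. -/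
theorem hadd (x y : Cl k (A₀ D) (A₁ D) (A₀₁ D) D.t D.s K) :
    degClass K (x * y) = degClass K x + degClass K y := by
  haveI := isDedekindDomain_baseChange₀ D K
  haveI := isDedekindDomain_baseChange₁ D K
  haveI := isDedekindDomain_baseChange₀₁ D K
  obtain ⟨n0, a0, ha0⟩ := exists_coords₀ D
  obtain ⟨n1, a1, ha1⟩ := exists_coords₁ D
  exact degClass_mul D.t D.s K (hts D) ha0 ha1 x y

/-- the degree of the trivial class is zero -/
theorem degClass_one : degClass K (1 : Cl k (A₀ D) (A₁ D) (A₀₁ D) D.t D.s K) = 0 := by
  have h := hadd D K 1 1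
  rw [mul_one] at h
  omega

/-- the degree of the inverse class -/
theorem degClass_inv (x : Cl k (A₀ D) (A₁ D) (A₀₁ D) D.t D.s K) :
    degClass K x⁻¹ = -degClass K x := by
  have h := hadd D K x x⁻¹
  rw [mul_inv_cancel, degClass_one D K] at h
  omega

end Fermat.Agent.JAC.B2.DegAdd37
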