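/-
Programme JAC (S25), work package B2, file 4 (helper37): a valuative criterion for the morphism
to an affine scheme defined by a regular function with "poles" outside its domain.

`X ⟶ S` satisfies the existence part of the valuative criterion (e.g. is proper), `U ⊆ X` is
open, `a ∈ Γ(X, U)` and every point outside `U` has a neighbourhood `V` with a section `b`
vanishing at the point such that `a * b = 1` on `U ⊓ V`.  Then any `S`-morphism
`g : U ⟶ Spec B` under which `a` is the pullback of an element of `B` satisfies the existence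
part of the valuative criterion.
-/
import Mathlib

set_option autoImplicit false

open AlgebraicGeometry CategoryTheory TopologicalSpace Opposite IsLocalRing

namespace Fermat.Agent.JAC.B2.Valuative37

universe u

section PullHom

variable {R : CommRingCat.{u}} {X : Scheme.{u}}

/-- Pull a section over `V` back along `l : Spec R ⟶ X` whose image lies in `V`,
as an element of `R`. -/
noncomputable def pullHom (l : Spec R ⟶ X) (V : X.Opens) (h : l ⁻¹ᵁ V = ⊤) : Γ(X, V) →+* R :=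
  (l.appLE V ⊤ h.ge ≫ (Scheme.ΓSpecIso R).hom).hom

lemma pullHom_apply (l : Spec R ⟶ X) (V : X.Opens) (h : l ⁻¹ᵁ V = ⊤) (b : Γ(X, V)) :
    pullHom l V h b = (Scheme.ΓSpecIso R).hom (l.appLE V ⊤ h.ge b) := rfl

lemma pullHom_congr {l l' : Spec R ⟶ X} (e : l = l') (V : X.Opens) (h : l ⁻¹ᵁ V = ⊤) :
    pullHom l V h = pullHom l' V (e ▸ h) := by
  subst e; rfl

/-- Compatibility with restriction. -/
lemma pullHom_map (l : Spec R ⟶ X) {V V' : X.Opens} (i : V' ≤ V) (h : l ⁻¹ᵁ V = ⊤)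
    (h' : l ⁻¹ᵁ V' = ⊤) (b : Γ(X, V)) :
    pullHom l V' h' (X.presheaf.map (homOfLE i).op b) = pullHom l V h b := by
  have := Scheme.Hom.map_appLE l (V := ⊤) (U := V') (U' := V) h'.ge (homOfLE i).op
  rw [pullHom_apply, pullHom_apply, ← this]
  rfl

/-- Compatibility with composition with `Spec.map`. -/
lemma pullHom_comp {R' : CommRingCat.{u}} (φ : R ⟶ R') (l : Spec R ⟶ X) (V : X.Opens)
    (h : l ⁻¹ᵁ V = ⊤) (h' : (Spec.map φ ≫ l) ⁻¹ᵁ V = ⊤) (b : Γ(X, V)) :
    pullHom (Spec.map φ ≫ l) V h' b = φ (pullHom l V h b) := by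
  have h1 : (Spec.map φ ≫ l).appLE V ⊤ h'.ge =
      l.appLE V ⊤ h.ge ≫ (Spec.map φ).appLE ⊤ ⊤ le_top :=
    (Scheme.Hom.appLE_comp_appLE (Spec.map φ) l V ⊤ ⊤ h.ge le_top).symm
  have h2 : (Spec.map φ).appLE ⊤ ⊤ le_top = (Spec.map φ).appTop := by
    simp [Scheme.Hom.appLE, Scheme.Hom.appTop] <;> exact Category.comp_id _
  have h3 := Scheme.ΓSpecIso_naturality φ
  rw [pullHom_apply, pullHom_apply, h1, h2]
  exact congrArg (fun (ψ : Γ(Spec R, ⊤) ⟶ R') => ψ (l.appLE V ⊤ h.ge b)) h3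

/-- If the pulled back section is a unit, the image of `l` lies in the nonvanishing locus. -/
lemma mem_basicOpen_of_isUnit_pullHom (l : Spec R ⟶ X) (V : X.Opens) (h : l ⁻¹ᵁ V = ⊤)
    (b : Γ(X, V)) (hu : IsUnit (pullHom l V h b)) (p : Spec R) : l p ∈ X.basicOpen b := by
  have hu' : IsUnit (l.appLE V ⊤ h.ge b) := by
    have := hu.map (Scheme.ΓSpecIso R).inv.hom
    rwa [pullHom_apply, Iso.hom_inv_id_apply] at this
  have h1 : (Spec R).basicOpen (l.appLE V ⊤ h.ge b) = ⊤ := Scheme.basicOpen_of_isUnit _ hu'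
  have h2 : (Spec R).basicOpen (l.appLE V ⊤ h.ge b) = ⊤ ⊓ (Spec R).basicOpen (l.app V b) :=
    Scheme.basicOpen_res (Spec R) (l.app V b) (homOfLE h.ge).op
  have h3 : p ∈ (Spec R).basicOpen (l.app V b) := by
    have : p ∈ (⊤ : (Spec R).Opens) ⊓ (Spec R).basicOpen (l.app V b) := by
      rw [← h2, h1]; trivial
    exact this.2
  rw [← Scheme.preimage_basicOpen] at h3
  exact h3

end PullHom

section Core

variable {X : Scheme.{u}} {U : X.Opens}

/-- The pole hypothesis: every point outside `U` has a neighbourhood `V` with a section `b`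
vanishing at the point such that `a * b = 1` on `U ⊓ V`. -/
def HasPoles (a : Γ(X, U)) : Prop :=
  ∀ x : X, x ∉ U → ∃ (V : X.Opens) (b : Γ(X, V)), x ∈ V ∧ x ∉ X.basicOpen b ∧
    X.presheaf.map (homOfLE (inf_le_left : U ⊓ V ≤ U)).op a *
      X.presheaf.map (homOfLE (inf_le_right : U ⊓ V ≤ V)).op b = 1

/-- **Core lemma.** Let `R` be a local ring injecting into a field `K`, and `l : Spec R ⟶ X` a
morphism whose generic part `Spec K ⟶ X` lands in `U`, such that the pullback of `a` to `K`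
comes from `R`.  Then `l` lands in `U`. -/
theorem preimage_eq_top_of_hasPoles {a : Γ(X, U)} (ha : HasPoles a) {R K : Type u} [CommRing R]
    [IsLocalRing R] [Field K] [Algebra R K] (hinj : Function.Injective (algebraMap R K))
    (l : Spec (.of R) ⟶ X)
    (hξ : (Spec.map (CommRingCat.ofHom (algebraMap R K)) ≫ l) ⁻¹ᵁ U = ⊤) (ρ : R)
    (hρ : pullHom (Spec.map (CommRingCat.ofHom (algebraMap R K)) ≫ l) U hξ a =
      algebraMap R K ρ) :
    l ⁻¹ᵁ U = ⊤ := by
  refine (closedPoint_mem_iff (R := R) (l ⁻¹ᵁ U)).mp ?_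
  by_contra hx0
  obtain ⟨V, b, hxV, hxb, hab⟩ := ha (l (closedPoint R)) hx0
  have hV : l ⁻¹ᵁ V = ⊤ := (closedPoint_mem_iff (R := R) (l ⁻¹ᵁ V)).mp hxV
  have hξV : (Spec.map (CommRingCat.ofHom (algebraMap R K)) ≫ l) ⁻¹ᵁ V = ⊤ := by
    rw [Scheme.Hom.comp_preimage, hV]; rfl
  have hξUV : (Spec.map (CommRingCat.ofHom (algebraMap R K)) ≫ l) ⁻¹ᵁ (U ⊓ V) = ⊤ := by
    ext p
    simp only [Opens.coe_top, Set.mem_univ, iff_true]
    exact ⟨(hξ ▸ trivial : p ∈ (Spec.map (CommRingCat.ofHom (algebraMap R K)) ≫ l) ⁻¹ᵁ U),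
      (hξV ▸ trivial : p ∈ (Spec.map (CommRingCat.ofHom (algebraMap R K)) ≫ l) ⁻¹ᵁ V)⟩
  have key : pullHom _ U hξ a * pullHom _ V hξV b = 1 := by
    rw [← pullHom_map _ inf_le_left hξ hξUV a, ← pullHom_map _ inf_le_right hξV hξUV b,
      ← map_mul, hab, map_one]
  rw [hρ, pullHom_comp (CommRingCat.ofHom (algebraMap R K)) l V hV hξV b] at key
  have hmul : ρ * pullHom l V hV b = 1 := by
    apply hinj
    rw [map_mul, map_one]
    exact key
  exact hxb (mem_basicOpen_of_isUnit_pullHom l V hV b (IsUnit.of_mul_eq_one _ (by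
    rw [mul_comm]; exact hmul)) _)

end Core

section Criterion

lemma ΓSpecIso_hom_appTop_specMap {R K : CommRingCat.{u}} (φ : R ⟶ K) (y : Γ(Spec R, ⊤)) :
    (Scheme.ΓSpecIso K).hom ((Spec.map φ).appTop y) = φ ((Scheme.ΓSpecIso R).hom y) :=
  congrArg (fun (ψ : Γ(Spec R, ⊤) ⟶ K) => ψ y) (Scheme.ΓSpecIso_naturality φ)

lemma appTop_specMap_injective {R K : CommRingCat.{u}} (φ : R ⟶ K)
    (hφ : Function.Injective φ) : Function.Injective (Spec.map φ).appTop := by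
  intro y y' h
  have h1 := congrArg (Scheme.ΓSpecIso K).hom h
  rw [ΓSpecIso_hom_appTop_specMap, ΓSpecIso_hom_appTop_specMap] at h1
  have h2 := hφ h1
  have := congrArg (Scheme.ΓSpecIso R).inv h2
  simpa using this

/-- Pulling back along a morphism which factors through the open subscheme `U`. -/
lemma pullHom_comp_ι {R : CommRingCat.{u}} {X : Scheme.{u}} {U : X.Opens} (i : Spec R ⟶ U.toScheme)
    (h : (i ≫ U.ι) ⁻¹ᵁ U = ⊤) (a : Γ(X, U)) :
    pullHom (i ≫ U.ι) U h a = (Scheme.ΓSpecIso R).hom (i.appTop (U.topIso.inv a)) := by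
  have h1 : (i ≫ U.ι).appLE U ⊤ h.ge =
      U.ι.appLE U ⊤ U.ι_preimage_self.ge ≫ i.appLE ⊤ ⊤ le_top :=
    (Scheme.Hom.appLE_comp_appLE i U.ι U ⊤ ⊤ U.ι_preimage_self.ge le_top).symm
  have h2 : i.appLE ⊤ ⊤ le_top = i.appTop := by
    simp [Scheme.Hom.appLE, Scheme.Hom.appTop] <;> exact Category.comp_id _
  have h3 : U.ι.appLE U ⊤ U.ι_preimage_self.ge = U.topIso.inv := by
    rw [Scheme.Opens.ι_appLE, Scheme.Opens.topIso_inv]
    rfl
  rw [pullHom_apply, h1, h2, h3]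
  rfl

variable {X S : Scheme.{u}} (f : X ⟶ S) {U : X.Opens} {a : Γ(X, U)}

/-- **Valuative criterion for a regular function with poles.** -/
theorem existence_of_hasPoles (hf : ValuativeCriterion.Existence f) (ha : HasPoles a)
    {B : CommRingCat.{u}} (g : U.toScheme ⟶ Spec B) (π : Spec B ⟶ S)
    (hcomm : g ≫ π = U.ι ≫ f) (β : B)
    (hβ : g.appTop ((Scheme.ΓSpecIso B).inv β) = U.topIso.inv a) :
    ValuativeCriterion.Existence g := by
  intro Sq
  have sq' : CommSq (Sq.i₁ ≫ U.ι) (Spec.map (CommRingCat.ofHom (algebraMap Sq.R Sq.K))) f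
      (Sq.i₂ ≫ π) :=
    ⟨by rw [Category.assoc, ← hcomm, ← Category.assoc, Sq.commSq.w, Category.assoc]⟩
  let Sq' : ValuativeCommSq f :=
    { R := Sq.R, K := Sq.K, i₁ := Sq.i₁ ≫ U.ι, i₂ := Sq.i₂ ≫ π, commSq := sq' }
  obtain ⟨⟨l, hl1, hl2⟩⟩ := hf Sq'
  change Spec.map (CommRingCat.ofHom (algebraMap Sq.R Sq.K)) ≫ l = Sq.i₁ ≫ U.ι at hl1
  have hξ : (Spec.map (CommRingCat.ofHom (algebraMap Sq.R Sq.K)) ≫ l) ⁻¹ᵁ U = ⊤ := by
    rw [hl1, Scheme.Hom.comp_preimage, U.ι_preimage_self]; rfl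
  let ρ : Sq.R := (Scheme.ΓSpecIso (.of Sq.R)).hom (Sq.i₂.appTop ((Scheme.ΓSpecIso B).inv β))
  have hρ : pullHom (Spec.map (CommRingCat.ofHom (algebraMap Sq.R Sq.K)) ≫ l) U hξ a =
      algebraMap Sq.R Sq.K ρ := by
    rw [pullHom_congr hl1, pullHom_comp_ι, ← hβ]
    have h1 : Sq.i₁.appTop (g.appTop ((Scheme.ΓSpecIso B).inv β)) =
        (Spec.map (CommRingCat.ofHom (algebraMap Sq.R Sq.K))).appTop
          (Sq.i₂.appTop ((Scheme.ΓSpecIso B).inv β)) := by
      have := congrArg Scheme.Hom.appTop Sq.commSq.w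
      rw [Scheme.Hom.comp_appTop, Scheme.Hom.comp_appTop] at this
      exact congrArg (fun (ψ : Γ(Spec B, ⊤) ⟶ Γ(Spec (.of Sq.K), ⊤)) =>
        ψ ((Scheme.ΓSpecIso B).inv β)) this
    rw [h1, ΓSpecIso_hom_appTop_specMap]
    rfl
  have hU := preimage_eq_top_of_hasPoles ha (IsFractionRing.injective Sq.R Sq.K) l hξ ρ hρ
  have hrange : Set.range l ⊆ Set.range U.ι := by
    rw [U.range_ι]
    rintro _ ⟨p, rfl⟩
    exact (hU ▸ trivial : p ∈ l ⁻¹ᵁ U)
  have hl0 : IsOpenImmersion.lift U.ι l hrange ≫ U.ι = l := IsOpenImmersion.lift_fac _ _ _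
  have hfac1 : Spec.map (CommRingCat.ofHom (algebraMap Sq.R Sq.K)) ≫
      IsOpenImmersion.lift U.ι l hrange = Sq.i₁ := by
    rw [← cancel_mono U.ι, Category.assoc, hl0, hl1]
  refine ⟨⟨⟨IsOpenImmersion.lift U.ι l hrange, hfac1, ?_⟩⟩⟩
  apply ext_of_isAffine
  have h1 : Spec.map (CommRingCat.ofHom (algebraMap Sq.R Sq.K)) ≫
      IsOpenImmersion.lift U.ι l hrange ≫ g =
      Spec.map (CommRingCat.ofHom (algebraMap Sq.R Sq.K)) ≫ Sq.i₂ := by
    rw [← Category.assoc, hfac1, Sq.commSq.w]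
  have h2 := congrArg Scheme.Hom.appTop h1
  rw [Scheme.Hom.comp_appTop, Scheme.Hom.comp_appTop (Spec.map _) Sq.i₂] at h2
  ext y
  apply appTop_specMap_injective (CommRingCat.ofHom (algebraMap Sq.R Sq.K))
    (IsFractionRing.injective Sq.R Sq.K)
  exact congrArg (fun (ψ : Γ(Spec B, ⊤) ⟶ Γ(Spec (.of Sq.K), ⊤)) => ψ y) h2

end Criterion

end Fermat.Agent.JAC.B2.Valuative37
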